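import Mathlib.LinearAlgebra.Matrix.Trace
import Mathlib.LinearAlgebra.Matrix.NonsingularInverse
import Mathlib.LinearAlgebra.Matrix.ToLin
import Mathlib.Algebra.MonoidAlgebra.Basic
import Mathlib.LinearAlgebra.FreeModule.Finite.Matrix
import Mathlib.LinearAlgebra.Dual.Lemmas
import Mathlib.RingTheory.LocalRing.ResidueField.Basic
import Mathlib.RingTheory.Nakayama
import Mathlib.RepresentationTheory.AlgebraRepresentation.Basic
import Mathlib.RingTheory.SimpleModule.Basic

/-!
# Matrix representations with full linear span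

A representation `ρ : G →* Matrix ι ι A` is *full* when the `A`-span of its image is the whole
matrix algebra.  Over a field this is absolute irreducibility (Burnside); over a local ring it is
absolute irreducibility of the residual representation (Nakayama).  Full representations are
determined up to conjugation by their traces (Carayol, Mazur).
-/

set_option autoImplicit false

namespace Fermat.Agent.RepTheory

open Matrix

variable {ι : Type*} [Fintype ι] [DecidableEq ι] {G : Type*} [Monoid G]

section CommRing

variable {A : Type*} [CommRing A]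

/-- The linear span of the image is the whole matrix algebra. -/
def IsFull (ρ : G →* Matrix ι ι A) : Prop :=
  Submodule.span A (Set.range ρ) = ⊤

/-- Base change of a matrix representation along a ring homomorphism. -/
def mapRep {B : Type*} [CommRing B] (f : A →+* B) (ρ : G →* Matrix ι ι A) :
    G →* Matrix ι ι B :=
  f.mapMatrix.toMonoidHom.comp ρ

/-- Unfolding of `mapRep`. -/
@[simp]
lemma mapRep_apply {B : Type*} [CommRing B] (f : A →+* B) (ρ : G →* Matrix ι ι A) (g : G) :
    mapRep f ρ g = (ρ g).map f := rfl

/-- The algebra map on the monoid algebra attached to a matrix representation. -/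
noncomputable def algRep (ρ : G →* Matrix ι ι A) : MonoidAlgebra A G →ₐ[A] Matrix ι ι A :=
  MonoidAlgebra.lift A (Matrix ι ι A) G ρ

@[simp]
lemma algRep_of (ρ : G →* Matrix ι ι A) (g : G) : algRep ρ (MonoidAlgebra.of A G g) = ρ g := by
  simp [algRep]

lemma range_algRep (ρ : G →* Matrix ι ι A) :
    LinearMap.range (algRep ρ).toLinearMap = Submodule.span A (Set.range ρ) := by
  refine le_antisymm ?_ (Submodule.span_le.2 ?_)
  · rintro _ ⟨x, rfl⟩
    induction x using MonoidAlgebra.induction_on with
    | of g => exact Submodule.subset_span ⟨g, (algRep_of ρ g).symm⟩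
    | add x y hx hy => rw [map_add]; exact Submodule.add_mem _ hx hy
    | smul a x hx => rw [map_smul]; exact Submodule.smul_mem _ _ hx
  · rintro _ ⟨g, rfl⟩
    exact ⟨MonoidAlgebra.of A G g, algRep_of ρ g⟩

lemma IsFull.algRep_surjective {ρ : G →* Matrix ι ι A} (h : IsFull ρ) :
    Function.Surjective (algRep ρ) := by
  intro M
  have : M ∈ LinearMap.range (algRep ρ).toLinearMap := by
    rw [range_algRep, h]; trivial
  exact this

lemma trace_algRep_eq {ρ₁ ρ₂ : G →* Matrix ι ι A}
    (htr : ∀ g, (ρ₁ g).trace = (ρ₂ g).trace) (x : MonoidAlgebra A G) :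
    (algRep ρ₁ x).trace = (algRep ρ₂ x).trace := by
  induction x using MonoidAlgebra.induction_on with
  | of g => rw [algRep_of, algRep_of, htr g]
  | add x y hx hy => rw [map_add, map_add, trace_add, trace_add, hx, hy]
  | smul a x hx => rw [map_smul, map_smul, trace_smul, trace_smul, hx]

lemma eq_zero_of_forall_trace_mul (M : Matrix ι ι A) (h : ∀ N, (M * N).trace = 0) : M = 0 := by
  ext i j
  have := h (Matrix.single j i 1)
  simpa [Matrix.trace_mul_single] using this

/-- For a full representation, an element killing all traces is zero. -/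
lemma IsFull.eq_zero_of_trace {ρ : G →* Matrix ι ι A} (h : IsFull ρ) (M : Matrix ι ι A)
    (hM : ∀ g, (M * ρ g).trace = 0) : M = 0 := by
  refine eq_zero_of_forall_trace_mul M fun N => ?_
  have hN : N ∈ Submodule.span A (Set.range ρ) := by rw [h]; trivial
  induction hN using Submodule.span_induction with
  | mem x hx => obtain ⟨g, rfl⟩ := hx; exact hM g
  | zero => simp
  | add x y _ _ hx hy => rw [Matrix.mul_add, trace_add, hx, hy, add_zero]
  | smul a x _ hx => rw [Matrix.mul_smul, trace_smul, hx, smul_zero]

/-- Fullness is preserved by ring maps. -/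
lemma IsFull.map {B : Type*} [CommRing B] (f : A →+* B) {ρ : G →* Matrix ι ι A}
    (h : IsFull ρ) : IsFull (mapRep f ρ) := by
  have key : ∀ N : Matrix ι ι A,
      N.map f ∈ Submodule.span B (Set.range (mapRep f ρ)) := fun N => by
    have hN : N ∈ Submodule.span A (Set.range ρ) := by rw [h]; trivial
    induction hN using Submodule.span_induction with
    | mem x hx => obtain ⟨g, rfl⟩ := hx; exact Submodule.subset_span ⟨g, rfl⟩
    | zero => simp
    | add x y _ _ hx hy => rw [Matrix.map_add f (map_add f)]; exact Submodule.add_mem _ hx hy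
    | smul a x _ hx =>
      have : (a • x).map f = f a • x.map f := by ext; simp
      rw [this]; exact Submodule.smul_mem _ _ hx
  rw [IsFull, eq_top_iff]
  rintro N -
  rw [Matrix.matrix_eq_sum_single N]
  refine Submodule.sum_mem _ fun i _ => Submodule.sum_mem _ fun j _ => ?_
  have h1 := Submodule.smul_mem _ (N i j) (key (Matrix.single i j 1))
  simpa [Matrix.map_single, Matrix.smul_single] using h1

/-- Fullness is preserved by conjugation. -/
lemma IsFull.conj {ρ ρ' : G →* Matrix ι ι A} (h : IsFull ρ) (P : (Matrix ι ι A)ˣ)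
    (hP : ∀ g, ρ' g = (P : Matrix ι ι A) * ρ g * (↑P⁻¹ : Matrix ι ι A)) : IsFull ρ' := by
  rw [IsFull, eq_top_iff]
  rintro N -
  have hN : ((↑P⁻¹ : Matrix ι ι A) * N * (P : Matrix ι ι A)) ∈ Submodule.span A (Set.range ρ) := by
    rw [h]; trivial
  have key : ∀ X ∈ Submodule.span A (Set.range ρ),
      ((P : Matrix ι ι A) * X * (↑P⁻¹ : Matrix ι ι A)) ∈
        Submodule.span A (Set.range ρ') := fun X hX => by
    induction hX using Submodule.span_induction with
    | mem x hx => obtain ⟨g, rfl⟩ := hx; exact Submodule.subset_span ⟨g, hP g⟩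
    | zero => simp
    | add x y _ _ hx hy => rw [mul_add, add_mul]; exact Submodule.add_mem _ hx hy
    | smul a x _ hx => rw [mul_smul_comm, smul_mul_assoc]; exact Submodule.smul_mem _ _ hx
  have := key _ hN
  rwa [← mul_assoc, ← mul_assoc, Units.mul_inv, one_mul, mul_assoc, Units.mul_inv, mul_one]
    at this

/-- Fullness is read off from traces. -/
theorem IsFull.of_trace_eq {ρ₁ ρ₂ : G →* Matrix ι ι A} (h : IsFull ρ₁)
    (htr : ∀ g, (ρ₁ g).trace = (ρ₂ g).trace) : IsFull ρ₂ := by
  choose y hy using fun p : ι × ι => h.algRep_surjective (Matrix.single p.1 p.2 1)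
  -- the trace pairing against the lifts of the matrix units
  let L : Matrix ι ι A →ₗ[A] Matrix ι ι A :=
    { toFun := fun f => Matrix.of fun i j => (f * algRep ρ₂ (y (j, i))).trace
      map_add' := fun f f' => by ext i j; simp [add_mul]
      map_smul' := fun a f => by ext i j; simp }
  have hL : ∀ k l, L (algRep ρ₂ (y (k, l))) = Matrix.single k l 1 := by
    intro k l
    ext i j
    show (algRep ρ₂ (y (k, l)) * algRep ρ₂ (y (j, i))).trace = _
    rw [← map_mul, ← trace_algRep_eq htr, map_mul, hy, hy, Matrix.trace_mul_single,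
      MulOpposite.op_one, one_smul]
  let R : Matrix ι ι A →ₗ[A] Matrix ι ι A :=
    { toFun := fun f => algRep ρ₂ (∑ p : ι × ι, f p.1 p.2 • y p)
      map_add' := fun f f' => by simp [add_smul, Finset.sum_add_distrib]
      map_smul' := fun a f => by simp [Finset.smul_sum, smul_smul] }
  have hR : ∀ f, L (R f) = f := by
    intro f
    show L (algRep ρ₂ (∑ p : ι × ι, f p.1 p.2 • y p)) = f
    rw [map_sum, map_sum]
    conv_rhs => rw [Matrix.matrix_eq_sum_single f]
    rw [Fintype.sum_prod_type]
    simp [hL, Matrix.smul_single]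
  have hinj : Function.Injective L :=
    OrzechProperty.injective_of_surjective_endomorphism L fun f => ⟨R f, hR f⟩
  rw [IsFull, ← range_algRep, eq_top_iff]
  intro M _
  exact ⟨_, hinj (hR (L M))⟩

/-- **Carayol / Mazur.**  A full representation over a local ring is determined up to conjugation
by its trace. -/
theorem IsFull.exists_conj_of_trace_eq [IsLocalRing A] {ρ₁ ρ₂ : G →* Matrix ι ι A}
    (h : IsFull ρ₁) (htr : ∀ g, (ρ₁ g).trace = (ρ₂ g).trace) :
    ∃ P : (Matrix ι ι A)ˣ, ∀ g, ρ₂ g * (P : Matrix ι ι A) = (P : Matrix ι ι A) * ρ₁ g := by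
  rcases isEmpty_or_nonempty ι with hι | ⟨⟨o⟩⟩
  · exact ⟨1, fun g => Matrix.ext fun i => (hι.false i).elim⟩
  have h₂ := h.of_trace_eq htr
  -- the two kernels agree
  have hker : ∀ x, algRep ρ₁ x = 0 → algRep ρ₂ x = 0 := fun x hx => by
    refine eq_zero_of_forall_trace_mul _ fun N => ?_
    obtain ⟨z, rfl⟩ := h₂.algRep_surjective N
    rw [← map_mul, ← trace_algRep_eq htr, map_mul, hx, zero_mul, trace_zero]
  have heq : ∀ x x', algRep ρ₁ x = algRep ρ₁ x' → algRep ρ₂ x = algRep ρ₂ x' := fun x x' hx => by
    rw [← sub_eq_zero, ← map_sub]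
    exact hker _ (by rw [map_sub, hx, sub_self])
  choose y hy using fun p : ι × ι => h.algRep_surjective (Matrix.single p.1 p.2 1)
  set E : ι → ι → Matrix ι ι A := fun i j => algRep ρ₂ (y (i, j)) with hE
  -- a unit diagonal entry of the idempotent `E o o`
  have htr1 : (E o o).trace = 1 := by
    rw [hE, ← trace_algRep_eq htr, hy]; simp
  obtain ⟨j, hj⟩ : ∃ j, IsUnit (E o o j j) := by
    by_contra hne
    push Not at hne
    have : (E o o).trace ∈ IsLocalRing.maximalIdeal A :=
      Submodule.sum_mem _ fun i _ => (IsLocalRing.mem_maximalIdeal _).2 (hne i)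
    rw [htr1] at this
    exact (IsLocalRing.maximalIdeal.isMaximal A).ne_top ((Ideal.eq_top_iff_one _).2 this)
  set u := hj.unit
  let P : Matrix ι ι A := ∑ i, E i o * Matrix.single j i 1
  let Q : Matrix ι ι A := ∑ i, (↑u⁻¹ : A) • (Matrix.single i j 1 * E o i)
  have hmul : ∀ i k, E o i * E k o = if i = k then E o o else 0 := by
    intro i k
    rw [hE, ← map_mul]
    split_ifs with hik
    · subst hik
      refine heq _ _ ?_
      rw [map_mul, hy, hy, hy]; simp
    · refine hker _ ?_
      rw [map_mul, hy, hy]; simp [hik]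
  have hQP : Q * P = 1 := by
    simp only [Q, P, Finset.sum_mul, Finset.mul_sum]
    have hterm : ∀ i k, (↑u⁻¹ : A) • (Matrix.single i j 1 * E o i) *
        (E k o * Matrix.single j k 1) = if i = k then Matrix.single i i 1 else 0 := by
      intro i k
      rw [smul_mul_assoc, mul_assoc, ← mul_assoc (E o i), hmul]
      split_ifs with hik
      · subst hik
        have hu : (↑u⁻¹ : A) * E o o j j = 1 := hj.val_inv_mul
        rw [← mul_assoc, Matrix.single_mul_mul_single, one_mul, mul_one, Matrix.smul_single,
          smul_eq_mul, hu]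
      · simp
    simp_rw [hterm]
    ext a b
    rcases eq_or_ne a b with hab | hab <;>
      simp [Matrix.sum_apply, Matrix.single_apply, Matrix.one_apply, hab, ite_and]
  let P' : (Matrix ι ι A)ˣ := ⟨P, Q, mul_eq_one_comm.1 hQP, hQP⟩
  refine ⟨P', fun g => ?_⟩
  show ρ₂ g * P = P * ρ₁ g
  have hcol : ∀ i, ρ₂ g * E i o = ∑ k, ρ₁ g k i • E k o := by
    intro i
    simp only [hE]
    rw [← algRep_of ρ₂ g, ← map_mul]
    simp_rw [← map_smul, ← map_sum]
    refine heq _ _ ?_
    simp only [map_mul, map_sum, map_smul, hy, algRep_of]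
    ext a b
    rw [Matrix.mul_apply, Matrix.sum_apply]
    simp only [Matrix.single_apply, Matrix.smul_apply, smul_eq_mul, mul_ite, mul_one, mul_zero]
    rcases eq_or_ne o b with hob | hob <;> simp [hob]
  calc ρ₂ g * P = ∑ i, ∑ k, E k o * Matrix.single j i (ρ₁ g k i) := by
        simp only [P, Finset.mul_sum]
        refine Finset.sum_congr rfl fun i _ => ?_
        rw [← mul_assoc, hcol, Finset.sum_mul]
        refine Finset.sum_congr rfl fun k _ => ?_
        rw [smul_mul_assoc, ← mul_smul_comm, Matrix.smul_single, smul_eq_mul, mul_one]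
    _ = P * ρ₁ g := by
        rw [Finset.sum_comm]
        simp only [P, Finset.sum_mul]
        refine Finset.sum_congr rfl fun k _ => ?_
        rw [← Finset.mul_sum, mul_assoc]
        congr 1
        ext a b
        rw [Matrix.sum_apply, Matrix.mul_apply]
        simp only [Matrix.single_apply, ite_mul, one_mul, zero_mul]
        rcases eq_or_ne j a with hja | hja <;> simp [hja]

end CommRing

section Field

variable {k : Type*} [Field k]

/-- Fullness descends along field extensions. -/
theorem IsFull.of_map {K : Type*} [Field K] (f : k →+* K) {ρ : G →* Matrix ι ι k}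
    (h : IsFull (mapRep f ρ)) : IsFull ρ := by
  by_contra hne
  obtain ⟨φ, hφ0, hφ⟩ := Submodule.exists_dual_map_eq_bot_of_lt_top
    (lt_top_iff_ne_top.2 hne) inferInstance
  let M : Matrix ι ι k := Matrix.of fun i j => φ (Matrix.single j i 1)
  have hM : ∀ N, φ N = (M * N).trace := by
    intro N
    conv_lhs => rw [Matrix.matrix_eq_sum_single N]
    simp only [map_sum, Matrix.trace, Matrix.diag, Matrix.mul_apply, M, Matrix.of_apply]
    rw [Finset.sum_comm]
    refine Finset.sum_congr rfl fun i _ => Finset.sum_congr rfl fun j _ => ?_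
    rw [mul_comm, ← smul_eq_mul, ← map_smul, Matrix.smul_single]
    simp
  have hker : ∀ g, (M * ρ g).trace = 0 := fun g => by
    rw [← hM]
    have : φ (ρ g) ∈ Submodule.map φ (Submodule.span k (Set.range ρ)) :=
      ⟨_, Submodule.subset_span ⟨g, rfl⟩, rfl⟩
    rwa [hφ, Submodule.mem_bot] at this
  have hMK : M.map f = 0 := h.eq_zero_of_trace _ fun g => by
    rw [mapRep_apply, ← Matrix.map_mul]
    calc ((M * ρ g).map f).trace = f (M * ρ g).trace := by
          simp only [Matrix.trace, Matrix.diag, Matrix.map_apply, map_sum]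
      _ = 0 := by rw [hker g, map_zero]
  have hM0 : M = 0 := by
    ext i j
    exact f.injective (by simpa using congrFun (congrFun hMK i) j)
  exact hφ0 (LinearMap.ext fun N => by simp [hM, hM0])

/-- **Burnside.**  An irreducible representation over an algebraically closed field is full. -/
theorem isFull_of_isAlgClosed [IsAlgClosed k] (ρ : G →* Matrix ι ι k)
    (hirr : ∀ W : Submodule k (ι → k), (∀ g, ∀ x ∈ W, ρ g *ᵥ x ∈ W) → W = ⊥ ∨ W = ⊤) :
    IsFull ρ := by
  rcases isEmpty_or_nonempty ι with hι | hι
  · exact eq_top_iff.2 fun x _ => by rw [Subsingleton.elim x 0]; exact Submodule.zero_mem _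
  let S : Subalgebra k (Module.End k (ι → k)) :=
    ((Matrix.toLinAlgEquiv' (R := k) (n := ι)).toAlgHom.comp (algRep ρ)).range
  have hsimple : IsSimpleModule S (ι → k) := by
    have : Nontrivial (Submodule S (ι → k)) := inferInstance
    refine { eq_bot_or_eq_top := fun W => ?_ }
    rcases hirr (W.restrictScalars k) (fun g x hx => by
      have := W.smul_mem (⟨_, MonoidAlgebra.of k G g, rfl⟩ : S) hx
      simpa [algRep, Subalgebra.smul_def, Module.End.smul_def] using this) with h | h
    · exact Or.inl ((Submodule.restrictScalars_eq_bot_iff k S (ι → k)).1 h)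
    · exact Or.inr ((Submodule.restrictScalars_eq_top_iff k S (ι → k)).1 h)
  rw [IsFull, ← range_algRep, eq_top_iff]
  intro M _
  let f : Module.End (Module.End S (ι → k)) (ι → k) :=
    { toFun := fun x => M *ᵥ x
      map_add' := Matrix.mulVec_add M
      map_smul' := fun e x => by
        obtain ⟨c, rfl⟩ := (IsSimpleModule.algebraMap_end_bijective_of_isAlgClosed
          (A := S) (V := ι → k) k).2 e
        simp [Matrix.mulVec_smul] }
  classical
  obtain ⟨⟨_, a, rfl⟩, hr⟩ := jacobson_density (R := S) (M := ι → k) f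
      (Finset.univ.image fun i : ι => Pi.single i (1 : k))
  refine ⟨a, Matrix.ext fun i j => ?_⟩
  have := congrFun (hr (Pi.single j 1) (Finset.mem_image.2 ⟨j, Finset.mem_univ _, rfl⟩)) i
  simpa [f, Subalgebra.smul_def, Module.End.smul_def, Matrix.mulVec_single_one] using this.symm

end Field

section Local

variable {A : Type*} [CommRing A] [IsLocalRing A]

/-- **Nakayama.**  Fullness lifts from the residue field. -/
theorem IsFull.of_residual {ρ : G →* Matrix ι ι A}
    (h : IsFull (mapRep (IsLocalRing.residue A) ρ)) : IsFull ρ := by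
  rw [IsFull, eq_top_iff]
  refine Submodule.le_of_le_smul_of_le_jacobson_bot (I := IsLocalRing.maximalIdeal A)
    Module.Finite.fg_top (IsLocalRing.maximalIdeal_le_jacobson _) ?_
  intro M _
  have key : ∀ X ∈ Submodule.span (IsLocalRing.ResidueField A)
      (Set.range (mapRep (IsLocalRing.residue A) ρ)),
      ∃ N ∈ Submodule.span A (Set.range ρ), N.map (IsLocalRing.residue A) = X := fun X hX => by
    induction hX using Submodule.span_induction with
    | mem x hx =>
      obtain ⟨g, rfl⟩ := hx; exact ⟨ρ g, Submodule.subset_span ⟨g, rfl⟩, rfl⟩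
    | zero => exact ⟨0, Submodule.zero_mem _, by simp⟩
    | add x y _ _ hx hy =>
      obtain ⟨N, hN, rfl⟩ := hx; obtain ⟨N', hN', rfl⟩ := hy
      exact ⟨N + N', Submodule.add_mem _ hN hN', by ext; simp⟩
    | smul a x _ hx =>
      obtain ⟨N, hN, rfl⟩ := hx
      obtain ⟨a, rfl⟩ := IsLocalRing.residue_surjective a
      exact ⟨a • N, Submodule.smul_mem _ _ hN, by ext; simp⟩
  obtain ⟨N, hN, hNM⟩ := key (M.map (IsLocalRing.residue A)) (by rw [h]; trivial)
  refine Submodule.mem_sup.2 ⟨N, hN, M - N, ?_, add_sub_cancel _ _⟩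
  rw [Matrix.matrix_eq_sum_single (M - N)]
  refine Submodule.sum_mem _ fun i _ => Submodule.sum_mem _ fun j _ => ?_
  have hmem : (M - N) i j ∈ IsLocalRing.maximalIdeal A := by
    rw [← IsLocalRing.residue_eq_zero_iff]
    have := congrFun (congrFun hNM i) j
    simp only [Matrix.map_apply] at this
    simp [this]
  have := Submodule.smul_mem_smul hmem
    (show Matrix.single i j (1 : A) ∈ (⊤ : Submodule A (Matrix ι ι A)) from trivial)
  simpa [Matrix.smul_single] using this

end Local

end Fermat.Agent.RepTheory
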