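import Fermat.Agent.RepTheory.GaloisBridge
import Mathlib.RingTheory.Filtration
import Mathlib.LinearAlgebra.Matrix.Charpoly.Coeff

/-!
# Representations are determined by Frobenius characteristic polynomials

Frobenius density enters as the hypothesis `FrobGenerates S`: every element agrees on a given finite
extension with a power of a Frobenius element at a prime outside `S`.
-/

set_option autoImplicit false

open Polynomial

namespace Fermat.Agent.RepTheory

/-- Frobenius density: on each finite extension every element is a power of a Frobenius element at a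
prime outside `S`. -/
def FrobGenerates (S : Set ℕ) : Prop :=
  ∀ L : IntermediateField ℚ (AlgebraicClosure ℚ), FiniteDimensional ℚ L → ∀ σ : Gal,
    ∃ ℓ : ℕ, ℓ.Prime ∧ ℓ ∉ S ∧ ∃ P : ValuationSubring (AlgebraicClosure ℚ),
      P.LiesOverPrime ℓ ∧ ∃ φ : Gal, P.IsFrobeniusAt φ ℓ ∧ ∃ a : ℕ, ∀ x ∈ L, σ x = (φ ^ a) x

/-- `φ` is a Frobenius element at some prime outside `S`. -/
def IsFrobOutside (S : Set ℕ) (φ : Gal) : Prop :=
  ∃ ℓ : ℕ, ℓ.Prime ∧ ℓ ∉ S ∧ ∃ P : ValuationSubring (AlgebraicClosure ℚ),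
    P.LiesOverPrime ℓ ∧ P.IsFrobeniusAt φ ℓ

/-- Frobenius density for a set of primes implies it for every smaller set. -/
theorem FrobGenerates.mono {S S' : Set ℕ} (h : FrobGenerates S) (hS : S' ⊆ S) :
    FrobGenerates S' := fun L hL σ => by
  obtain ⟨ℓ, hℓ, hℓS, rest⟩ := h L hL σ
  exact ⟨ℓ, hℓ, fun hc => hℓS (hS hc), rest⟩

/-- The finset-parametrised density statement implies `FrobGenerates` for finite exceptional
sets. -/
theorem frobGenerates_finset
    (h : ∀ L : IntermediateField ℚ (AlgebraicClosure ℚ), FiniteDimensional ℚ L →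
      ∀ (σ : Gal) (S₀ : Finset ℕ), ∃ ℓ : ℕ, ℓ.Prime ∧ ℓ ∉ S₀ ∧
        ∃ P : ValuationSubring (AlgebraicClosure ℚ), P.LiesOverPrime ℓ ∧
          ∃ φ : Gal, P.IsFrobeniusAt φ ℓ ∧ ∃ a : ℕ, ∀ x ∈ L, σ x = (φ ^ a) x)
    (S : Finset ℕ) : FrobGenerates (↑S : Set ℕ) := fun L hL σ => by
  obtain ⟨ℓ, hℓ, hℓS, rest⟩ := h L hL σ S
  exact ⟨ℓ, hℓ, hℓS, rest⟩

section Quadratic

variable {A : Type*} [CommRing A]

/-- Cayley–Hamilton for the traces of powers of a `2 × 2` matrix. -/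
lemma trace_pow_add_two (M : Matrix (Fin 2) (Fin 2) A) (n : ℕ) :
    (M ^ (n + 2)).trace = M.trace * (M ^ (n + 1)).trace - M.det * (M ^ n).trace := by
  have h2 : M ^ 2 = M.trace • M - M.det • (1 : Matrix (Fin 2) (Fin 2) A) := by
    ext i j
    fin_cases i <;> fin_cases j <;>
      simp [pow_two, Matrix.mul_apply, Fin.sum_univ_two, Matrix.trace_fin_two,
        Matrix.det_fin_two] <;> ring
  rw [pow_add, h2, mul_sub, mul_smul_comm, mul_smul_comm, ← pow_succ, mul_one, Matrix.trace_sub,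
    Matrix.trace_smul, Matrix.trace_smul, smul_eq_mul, smul_eq_mul]

/-- Trace and determinant determine the traces of all powers. -/
lemma trace_pow_eq {M M' : Matrix (Fin 2) (Fin 2) A} (ht : M.trace = M'.trace)
    (hd : M.det = M'.det) : ∀ n : ℕ, (M ^ n).trace = (M' ^ n).trace
  | 0 => by simp
  | 1 => by simpa using ht
  | n + 2 => by
      rw [trace_pow_add_two, trace_pow_add_two, ht, hd, trace_pow_eq ht hd (n + 1),
        trace_pow_eq ht hd n]

/-- Trace and determinant of a matrix in a subring give traces of all powers in the subring. -/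
lemma trace_pow_mem {R : Type*} [SetLike R A] [SubringClass R A] (B : R)
    {M : Matrix (Fin 2) (Fin 2) A} (ht : M.trace ∈ B) (hd : M.det ∈ B) :
    ∀ n : ℕ, (M ^ n).trace ∈ B
  | 0 => by simp [Matrix.trace_one]
  | 1 => by simpa using ht
  | n + 2 => by
      rw [trace_pow_add_two]
      exact sub_mem (mul_mem ht (trace_pow_mem B ht hd (n + 1)))
        (mul_mem hd (trace_pow_mem B ht hd n))

lemma trace_eq_of_charpoly_eq [Nontrivial A] {V W : Type*} [AddCommGroup V] [Module A V]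
    [Module.Free A V] [Module.Finite A V] [AddCommGroup W] [Module A W] [Module.Free A W]
    [Module.Finite A W] (b : Module.Basis (Fin 2) A V) (c : Module.Basis (Fin 2) A W)
    {f : Module.End A V} {g : Module.End A W}
    (h : LinearMap.charpoly f = LinearMap.charpoly g) :
    (LinearMap.toMatrix b b f).trace = (LinearMap.toMatrix c c g).trace ∧
      (LinearMap.toMatrix b b f).det = (LinearMap.toMatrix c c g).det := by
  rw [← LinearMap.charpoly_toMatrix f b, ← LinearMap.charpoly_toMatrix g c] at h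
  refine ⟨?_, ?_⟩
  · rw [Matrix.trace_eq_neg_charpoly_coeff, Matrix.trace_eq_neg_charpoly_coeff, h]
  · rw [Matrix.det_eq_sign_charpoly_coeff, Matrix.det_eq_sign_charpoly_coeff, h]

end Quadratic

variable {A : Type} [CommRing A] [IsLocalRing A]

/-- Continuity: elements that agree on a suitable finite extension have congruent matrices. -/
lemma exists_field_trace_congr (ρ : GaloisRepAdic A) (n : ℕ) :
    ∃ L : IntermediateField ℚ (AlgebraicClosure ℚ), FiniteDimensional ℚ L ∧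
      ∀ σ τ : Gal, (∀ x ∈ L, σ x = τ x) →
        ρ.trace σ - ρ.trace τ ∈ IsLocalRing.maximalIdeal A ^ n := by
  obtain ⟨L, hL, h⟩ := ρ.isAdicContinuous n
  refine ⟨L, hL, fun σ τ hστ => ?_⟩
  set b := adicBasis ρ
  have hfix : ∀ x ∈ L, (τ⁻¹ * σ) x = x := fun x hx => by
    rw [AlgEquiv.mul_apply, hστ x hx]; exact τ.symm_apply_apply x
  have hσ : σ = τ * (τ⁻¹ * σ) := by group
  have key : ρ.ρ σ - ρ.ρ τ = ρ.ρ τ * (ρ.ρ (τ⁻¹ * σ) - 1) := by
    rw [mul_sub, mul_one, ← map_mul, ← hσ]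
  rw [GaloisRepAdic.trace, GaloisRepAdic.trace, ← map_sub,
    LinearMap.trace_eq_matrix_trace A b]
  refine Submodule.sum_mem _ fun i _ => ?_
  rw [Matrix.diag_apply, LinearMap.toMatrix_apply, key, Module.End.mul_apply]
  have hmem : ρ.ρ τ ((ρ.ρ (τ⁻¹ * σ) - 1) (b i)) ∈
      IsLocalRing.maximalIdeal A ^ n • (⊤ : Submodule A ρ.V) :=
    Submodule.smul_top_le_comap_smul_top _ (ρ.ρ τ) (h _ hfix (b i))
  refine Submodule.smul_induction_on hmem (fun r hr v _ => ?_) (fun x y hx hy => ?_)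
  · rw [map_smul, Finsupp.smul_apply, smul_eq_mul]; exact Ideal.mul_mem_right _ _ hr
  · rw [map_add, Finsupp.add_apply]; exact add_mem hx hy

/-- Equal Frobenius characteristic polynomials give equal traces everywhere. -/
theorem trace_eq_of_frobenius [IsNoetherianRing A] {S : Set ℕ} (hS : FrobGenerates S)
    (ρ₁ ρ₂ : GaloisRepAdic A)
    (h : ∀ φ : Gal, IsFrobOutside S φ →
      LinearMap.charpoly (ρ₁.ρ φ) = LinearMap.charpoly (ρ₂.ρ φ))
    (σ : Gal) : ρ₁.trace σ = ρ₂.trace σ := by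
  rw [← sub_eq_zero, ← Submodule.mem_bot (R := A),
    ← Ideal.iInf_pow_eq_bot_of_isLocalRing _ (IsLocalRing.maximalIdeal.isMaximal A).ne_top,
    Ideal.mem_iInf]
  intro n
  obtain ⟨L₁, hL₁, h₁⟩ := exists_field_trace_congr ρ₁ n
  obtain ⟨L₂, hL₂, h₂⟩ := exists_field_trace_congr ρ₂ n
  obtain ⟨ℓ, hℓ, hℓS, P, hP, φ, hφ, a, ha⟩ := hS (L₁ ⊔ L₂) inferInstance σ
  have e : ρ₁.trace (φ ^ a) = ρ₂.trace (φ ^ a) := by
    have hfrob := h φ ⟨ℓ, hℓ, hℓS, P, hP, hφ⟩
    obtain ⟨ht, hd⟩ := trace_eq_of_charpoly_eq (adicBasis ρ₁) (adicBasis ρ₂) hfrob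
    rw [GaloisRepAdic.trace, GaloisRepAdic.trace, ← trace_matRep (adicBasis ρ₁) ρ₁.ρ,
      ← trace_matRep (adicBasis ρ₂) ρ₂.ρ, map_pow, map_pow]
    exact trace_pow_eq ht hd a
  have := sub_mem (h₁ σ (φ ^ a) fun x hx => ha x (le_sup_left (a := L₁) hx))
    (h₂ σ (φ ^ a) fun x hx => ha x (le_sup_right (a := L₁) hx))
  rwa [e, sub_sub_sub_cancel_right] at this

/-- A residually absolutely irreducible representation is determined up to equivalence by its
Frobenius characteristic polynomials. -/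
theorem adic_isEquiv_of_frobenius [IsNoetherianRing A] {S : Set ℕ} (hS : FrobGenerates S)
    (ρ₁ ρ₂ : GaloisRepAdic A) (habs : ρ₁.residual.IsAbsolutelyIrreducible)
    (h : ∀ φ : Gal, IsFrobOutside S φ →
      LinearMap.charpoly (ρ₁.ρ φ) = LinearMap.charpoly (ρ₂.ρ φ)) :
    ρ₁.IsEquiv ρ₂ :=
  adic_isEquiv_of_trace_eq ρ₁ ρ₂ habs (trace_eq_of_frobenius hS ρ₁ ρ₂ h)

/-- Every trace is congruent modulo every power of the maximal ideal to an element of any subring
containing the Frobenius traces and determinants. -/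
theorem exists_mem_trace_congr {S : Set ℕ} (hS : FrobGenerates S) (ρ : GaloisRepAdic A)
    {R : Type*} [SetLike R A] [SubringClass R A] (B : R)
    (h : ∀ φ : Gal, IsFrobOutside S φ → ρ.trace φ ∈ B ∧ LinearMap.det (ρ.ρ φ) ∈ B)
    (σ : Gal) (n : ℕ) : ∃ b ∈ B, ρ.trace σ - b ∈ IsLocalRing.maximalIdeal A ^ n := by
  obtain ⟨L, hL, hc⟩ := exists_field_trace_congr ρ n
  obtain ⟨ℓ, hℓ, hℓS, P, hP, φ, hφ, a, ha⟩ := hS L hL σ
  refine ⟨ρ.trace (φ ^ a), ?_, hc σ (φ ^ a) ha⟩
  obtain ⟨ht, hd⟩ := h φ ⟨ℓ, hℓ, hℓS, P, hP, hφ⟩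
  rw [GaloisRepAdic.trace, ← trace_matRep (adicBasis ρ) ρ.ρ, map_pow]
  refine trace_pow_mem B ?_ ?_ a
  · rw [trace_matRep]; exact ht
  · rw [det_matRep]; exact hd

/-- Residual version of `trace_eq_of_frobenius`. -/
theorem residual_trace_eq_of_frobenius {k : Type} [Field k] {S : Set ℕ} (hS : FrobGenerates S)
    (ρ₁ ρ₂ : ResidualGaloisRep k)
    (h : ∀ φ : Gal, IsFrobOutside S φ →
      LinearMap.charpoly (ρ₁.ρ φ) = LinearMap.charpoly (ρ₂.ρ φ))
    (σ : Gal) : LinearMap.trace k ρ₁.V (ρ₁.ρ σ) = LinearMap.trace k ρ₂.V (ρ₂.ρ σ) :=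
  trace_eq_of_frobenius hS (.ofResidualGaloisRep ρ₁) (.ofResidualGaloisRep ρ₂) h σ

/-- An absolutely irreducible residual representation is determined by its Frobenius
characteristic polynomials. -/
theorem residual_isEquiv_of_frobenius {k : Type} [Field k] {S : Set ℕ} (hS : FrobGenerates S)
    (ρ₁ ρ₂ : ResidualGaloisRep k) (habs : ρ₁.IsAbsolutelyIrreducible)
    (h : ∀ φ : Gal, IsFrobOutside S φ →
      LinearMap.charpoly (ρ₁.ρ φ) = LinearMap.charpoly (ρ₂.ρ φ)) :
    ρ₁.IsEquiv ρ₂ :=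
  residual_isEquiv_of_trace_eq ρ₁ ρ₂ habs (residual_trace_eq_of_frobenius hS ρ₁ ρ₂ h)

end Fermat.Agent.RepTheory
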