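import Fermat.Agent.GaloisBasics.Roots
import Mathlib.NumberTheory.Padics.RingHoms
import Mathlib.RingTheory.AdicCompletion.RingHom
import Mathlib.FieldTheory.IntermediateField.Adjoin.Basic

/-!
# The cyclotomic character with values in a complete local ring

For a complete local ring `O` with `p` in its maximal ideal, `padicHom` is the canonical map
`ℤ_p → O` and `cycloChar` the composite of the `p`-adic cyclotomic character with it: it is `q` at
Frobenius elements at `q ≠ p`, trivial on inertia there, and adically continuous.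
-/

set_option autoImplicit false

noncomputable section

open IsLocalRing

namespace Fermat.Agent.RepTheory

variable (p : ℕ) [Fact p.Prime] (O : Type*) [CommRing O] [IsLocalRing O]
  [IsAdicComplete (maximalIdeal O) O]

/-- The map `ℤ/pⁿ → O/mⁿ`. -/
def zmodToQuot (hp : (p : O) ∈ maximalIdeal O) (n : ℕ) :
    ZMod (p ^ n) →+* O ⧸ maximalIdeal O ^ n :=
  haveI := ringChar.charP (O ⧸ maximalIdeal O ^ n)
  ZMod.castHom (ringChar.dvd (R := O ⧸ maximalIdeal O ^ n) (x := p ^ n) (by
    rw [Nat.cast_pow, ← map_natCast (Ideal.Quotient.mk _), ← map_pow,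
      Ideal.Quotient.eq_zero_iff_mem]
    exact Ideal.pow_mem_pow hp n)) _

/-- The canonical map `ℤ_p → O` for a complete local ring with `p` in its maximal ideal. -/
def padicHom (hp : (p : O) ∈ maximalIdeal O) : ℤ_[p] →+* O :=
  IsAdicComplete.liftRingHom (maximalIdeal O)
    (fun n => (zmodToQuot p O hp n).comp (PadicInt.toZModPow n))
    (fun {m n} hle => by
      rw [← RingHom.comp_assoc, ← PadicInt.zmod_cast_comp_toZModPow m n hle, ← RingHom.comp_assoc]
      congr 1
      exact Subsingleton.elim _ _)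

/-- `padicHom` modulo `mⁿ`. -/
lemma mk_padicHom (hp : (p : O) ∈ maximalIdeal O) (n : ℕ) (x : ℤ_[p]) :
    Ideal.Quotient.mk (maximalIdeal O ^ n) (padicHom p O hp x) =
      zmodToQuot p O hp n (PadicInt.toZModPow n x) :=
  by unfold padicHom; exact IsAdicComplete.mk_liftRingHom (R := ℤ_[p]) _ _ (fun {m n} hle => by
      rw [← RingHom.comp_assoc, ← PadicInt.zmod_cast_comp_toZModPow m n hle, ← RingHom.comp_assoc]
      congr 1
      exact Subsingleton.elim _ _) n x

/-- The cyclotomic character with values in `O`. -/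
def cycloChar (hp : (p : O) ∈ maximalIdeal O) :
    (AlgebraicClosure ℚ ≃ₐ[ℚ] AlgebraicClosure ℚ) →* O :=
  (padicHom p O hp).toMonoidHom.comp ((Units.coeHom _).comp
    ((cyclotomicCharacter (AlgebraicClosure ℚ) p).comp
      { toFun := fun σ => (σ : AlgebraicClosure ℚ ≃+* AlgebraicClosure ℚ)
        map_one' := rfl
        map_mul' := fun _ _ => rfl }))

lemma cycloChar_apply (hp : (p : O) ∈ maximalIdeal O)
    (σ : AlgebraicClosure ℚ ≃ₐ[ℚ] AlgebraicClosure ℚ) :
    cycloChar p O hp σ = padicHom p O hp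
      ((cyclotomicCharacter (AlgebraicClosure ℚ) p
        (σ : AlgebraicClosure ℚ ≃+* AlgebraicClosure ℚ) : ℤ_[p]ˣ) : ℤ_[p]) := rfl

/-- The cyclotomic character of a Frobenius at `q ≠ p` is `q`. -/
theorem cycloChar_frobenius (hp : (p : O) ∈ maximalIdeal O) {q : ℕ} (hq : q.Prime) (hqp : q ≠ p)
    {A : ValuationSubring (AlgebraicClosure ℚ)} (hA : A.LiesOverPrime q)
    {σ : AlgebraicClosure ℚ ≃ₐ[ℚ] AlgebraicClosure ℚ} (hσ : A.IsFrobeniusAt σ q) :
    cycloChar p O hp σ = q := by
  rw [cycloChar_apply, GaloisBasics.cyclotomicCharacter_frobenius hA hq hqp hσ, map_natCast]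

/-- The cyclotomic character is trivial on inertia at `q ≠ p`. -/
theorem cycloChar_inertia (hp : (p : O) ∈ maximalIdeal O) {q : ℕ} (hq : q.Prime) (hqp : q ≠ p)
    {A : ValuationSubring (AlgebraicClosure ℚ)} (hA : A.LiesOverPrime q)
    {σ : AlgebraicClosure ℚ ≃ₐ[ℚ] AlgebraicClosure ℚ} (hσ : σ ∈ A.inertiaSubgroupIn ℚ) :
    cycloChar p O hp σ = 1 := by
  rw [cycloChar_apply, ← map_one (padicHom p O hp)]
  congr 1
  refine PadicInt.ext_of_toZModPow.mp fun i => ?_
  rw [map_one, cyclotomicCharacter.toZModPow,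
    GaloisBasics.modularCyclotomicCharacter_inertia hA hq _
      (fun h => hqp ((Nat.prime_dvd_prime_iff_eq hq Fact.out).mp (hq.dvd_of_dvd_pow h))) hσ,
    Units.val_one]

/-- Continuity: the cyclotomic character is congruent to one modulo `mⁿ` on a finite level. -/
theorem cycloChar_continuous (hp : (p : O) ∈ maximalIdeal O) (n : ℕ) :
    ∃ L : IntermediateField ℚ (AlgebraicClosure ℚ), FiniteDimensional ℚ L ∧
      ∀ σ : AlgebraicClosure ℚ ≃ₐ[ℚ] AlgebraicClosure ℚ, (∀ x ∈ L, σ x = x) →
        cycloChar p O hp σ - 1 ∈ maximalIdeal O ^ n := by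
  have : NeZero (p ^ n) := ⟨pow_ne_zero _ (Fact.out (p := p.Prime)).ne_zero⟩
  obtain ⟨ζ, hζ⟩ := HasEnoughRootsOfUnity.exists_primitiveRoot (AlgebraicClosure ℚ) (p ^ n)
  refine ⟨IntermediateField.adjoin ℚ {ζ},
    IntermediateField.adjoin.finiteDimensional (Algebra.IsIntegral.isIntegral ζ),
    fun σ hσ => ?_⟩
  rw [← Ideal.Quotient.mk_eq_mk_iff_sub_mem, map_one, cycloChar_apply, mk_padicHom,
    cyclotomicCharacter.toZModPow,
    GaloisBasics.modularCyclotomicCharacter_eq_natCast _ _ 1 fun x hx => ?_, Nat.cast_one, map_one]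
  obtain ⟨i, -, rfl⟩ := hζ.eq_pow_of_pow_eq_one hx
  rw [pow_one, map_pow]
  exact congrArg (· ^ i) (hσ ζ (IntermediateField.mem_adjoin_simple_self ℚ ζ))

end Fermat.Agent.RepTheory
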