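import Fermat.Agent.RepTheory.Realise
import Fermat.Agent.RepTheory.FrobTrace
import Fermat.Agent.EigenRep.QuadraticRep

/-!
# Adic representations from quadratic Frobenius relations

A continuous representation `R : Gal → GL_r(O)` whose Frobenius elements satisfy
`R φ + d φ R φ⁻¹ = scalar` yields a two-dimensional adic representation with determinant `d`.
-/

set_option autoImplicit false

open Polynomial IsLocalRing

namespace Fermat.Agent.RepTheory

section Pow

variable {G : Type*} [Group G] {O : Type*} [CommRing O] {n : Type*} [Fintype n] [DecidableEq n]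

/-- Quadratic relations pass to powers. -/
lemma exists_scalar_pow (R : G →* Matrix n n O) (d : G →* O) {g : G} {c : O}
    (h : R g + d g • R g⁻¹ = c • (1 : Matrix n n O)) :
    ∀ a : ℕ, ∃ t : O, R (g ^ a) + d (g ^ a) • R (g ^ a)⁻¹ = t • (1 : Matrix n n O)
  | 0 => ⟨2, by simp [two_smul]⟩
  | 1 => ⟨c, by simpa using h⟩
  | a + 2 => by
    obtain ⟨t₁, h₁⟩ := exists_scalar_pow R d h (a + 1)
    obtain ⟨t₀, h₀⟩ := exists_scalar_pow R d h a
    refine ⟨c * t₁ - d g * t₀, ?_⟩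
    set X := R g
    set Y := R g⁻¹
    have hXY : X * Y = 1 := by rw [← map_mul, mul_inv_cancel, map_one]
    have hYX : Y * X = 1 := by rw [← map_mul, inv_mul_cancel, map_one]
    have hpow : ∀ b : ℕ, R (g ^ b)⁻¹ = Y ^ b := fun b => by rw [← inv_pow, map_pow]
    simp only [hpow, map_pow, show R g = X from rfl] at h₁ h₀ ⊢
    have e₁ : Y * X ^ (a + 1) = X ^ a := by rw [pow_succ', ← mul_assoc, hYX, one_mul]
    have e₂ : X * Y ^ (a + 1) = Y ^ a := by rw [pow_succ', ← mul_assoc, hXY, one_mul]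
    have key : (X + d g • Y) * (X ^ (a + 1) + d g ^ (a + 1) • Y ^ (a + 1)) =
        (X ^ (a + 2) + d g ^ (a + 2) • Y ^ (a + 2)) + d g • (X ^ a + d g ^ a • Y ^ a) := by
      simp only [mul_add, add_mul, smul_mul_assoc, mul_smul_comm, e₁, e₂, ← pow_succ']
      module
    rw [h, h₁, h₀, smul_mul_assoc, one_mul, smul_smul, smul_smul] at key
    rw [sub_smul, eq_sub_iff_add_eq]
    exact key.symm

end Pow

variable {O : Type} [CommRing O] [IsLocalRing O] {r : ℕ}

/-- Entrywise continuity. -/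
def EntryContinuous (R : Gal →* Matrix (Fin r) (Fin r) O) : Prop :=
  ∀ m : ℕ, ∃ L : IntermediateField ℚ (AlgebraicClosure ℚ), FiniteDimensional ℚ L ∧
    ∀ σ : Gal, (∀ x ∈ L, σ x = x) → ∀ i j, (R σ - 1) i j ∈ maximalIdeal O ^ m

/-- Continuity of a character. -/
def CharContinuous (d : Gal →* O) : Prop :=
  ∀ m : ℕ, ∃ L : IntermediateField ℚ (AlgebraicClosure ℚ), FiniteDimensional ℚ L ∧
    ∀ σ : Gal, (∀ x ∈ L, σ x = x) → d σ - 1 ∈ maximalIdeal O ^ m

/-- Combination of the two continuity hypotheses for the operators `R g + d g R g⁻¹`. -/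
lemma exists_field_operator_congr (R : Gal →* Matrix (Fin r) (Fin r) O) (d : Gal →* O)
    (hR : EntryContinuous R) (hd : CharContinuous d) (m : ℕ) :
    ∃ L : IntermediateField ℚ (AlgebraicClosure ℚ), FiniteDimensional ℚ L ∧
      ∀ σ τ : Gal, (∀ x ∈ L, σ x = τ x) → ∀ i j,
        (R σ + d σ • R σ⁻¹) i j - (R τ + d τ • R τ⁻¹) i j ∈ maximalIdeal O ^ m := by
  obtain ⟨L₁, hL₁, h₁⟩ := hR m
  obtain ⟨L₂, hL₂, h₂⟩ := hd m
  refine ⟨L₁ ⊔ L₂, inferInstance, fun σ τ hστ i j => ?_⟩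
  set u := τ⁻¹ * σ with hu
  have hfix : ∀ x ∈ L₁ ⊔ L₂, u x = x := fun x hx => by
    rw [hu, AlgEquiv.mul_apply, hστ x hx]; exact τ.symm_apply_apply x
  have hfix' : ∀ x ∈ L₁ ⊔ L₂, u⁻¹ x = x := fun x hx => by
    conv_lhs => rw [← hfix x hx]
    exact u.symm_apply_apply x
  have hσ : σ = τ * u := by rw [hu]; group
  have a₁ : ∀ i j, (R u - 1) i j ∈ maximalIdeal O ^ m :=
    h₁ u fun x hx => hfix x (le_sup_left (a := L₁) hx)
  have a₂ : ∀ i j, (R u⁻¹ - 1) i j ∈ maximalIdeal O ^ m :=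
    h₁ u⁻¹ fun x hx => hfix' x (le_sup_left (a := L₁) hx)
  have a₃ : d u - 1 ∈ maximalIdeal O ^ m := h₂ u fun x hx => hfix x (le_sup_right (a := L₁) hx)
  have key : R σ + d σ • R σ⁻¹ - (R τ + d τ • R τ⁻¹) =
      R τ * (R u - 1) + ((d τ * (d u - 1)) • R σ⁻¹ + d τ • ((R u⁻¹ - 1) * R τ⁻¹)) := by
    have e1 : R σ = R τ * R u := by rw [← map_mul, ← hσ]
    have e2 : R σ⁻¹ = R u⁻¹ * R τ⁻¹ := by
      rw [← map_mul, ← _root_.mul_inv_rev, ← hσ]
    have e3 : d σ = d τ * d u := by rw [← map_mul, ← hσ]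
    rw [e1, e2, e3, mul_sub, mul_one, sub_mul, one_mul, smul_sub, mul_sub (d τ), mul_one, sub_smul]
    abel
  rw [← Matrix.sub_apply, key, Matrix.add_apply, Matrix.add_apply, Matrix.smul_apply,
    Matrix.smul_apply, Matrix.mul_apply, Matrix.mul_apply, smul_eq_mul, smul_eq_mul]
  refine add_mem (Ideal.sum_mem _ fun k _ => Ideal.mul_mem_left _ _ (a₁ k j)) (add_mem ?_ ?_)
  · exact Ideal.mul_mem_right _ _ (Ideal.mul_mem_left _ _ a₃)
  · exact Ideal.mul_mem_left _ _ (Ideal.sum_mem _ fun k _ => Ideal.mul_mem_right _ _ (a₂ i k))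

/-- Frobenius relations propagate to every element by density. -/
theorem scalar_of_frobenius [IsNoetherianRing O] {S : Set ℕ} (hS : FrobGenerates S)
    (R : Gal →* Matrix (Fin r) (Fin r) O) (d : Gal →* O) (hR : EntryContinuous R)
    (hd : CharContinuous d)
    (hfrob : ∀ φ : Gal, IsFrobOutside S φ → ∃ c : O, R φ + d φ • R φ⁻¹ = c • 1) (o : Fin r)
    (g : Gal) : R g + d g • R g⁻¹ = (R g + d g • R g⁻¹) o o • (1 : Matrix (Fin r) (Fin r) O) := by
  ext i j
  rw [← sub_eq_zero, ← Submodule.mem_bot (R := O),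
    ← Ideal.iInf_pow_eq_bot_of_isLocalRing _ (maximalIdeal.isMaximal O).ne_top, Ideal.mem_iInf]
  intro m
  obtain ⟨L, hL, hc⟩ := exists_field_operator_congr R d hR hd m
  obtain ⟨ℓ, hℓ, hℓS, P, hP, φ, hφ, a, ha⟩ := hS L hL g
  obtain ⟨c, hcφ⟩ := hfrob φ ⟨ℓ, hℓ, hℓS, P, hP, hφ⟩
  obtain ⟨t, ht⟩ := exists_scalar_pow R d hcφ a
  have hij := hc g (φ ^ a) ha
  have key : (R g + d g • R g⁻¹) i j - ((R g + d g • R g⁻¹) o o • (1 : Matrix _ _ O)) i j =
      ((R g + d g • R g⁻¹) i j - (R (φ ^ a) + d (φ ^ a) • R (φ ^ a)⁻¹) i j) -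
        ((R g + d g • R g⁻¹) o o - (R (φ ^ a) + d (φ ^ a) • R (φ ^ a)⁻¹) o o) *
          (1 : Matrix (Fin r) (Fin r) O) i j := by
    simp only [ht, Matrix.smul_apply, smul_eq_mul, Matrix.one_apply_eq, mul_one]
    ring
  rw [key]
  exact sub_mem (hij i j) (Ideal.mul_mem_right _ _ (hij o o))

end Fermat.Agent.RepTheory

namespace Fermat.Agent.RepTheory

variable {O : Type} [CommRing O] [IsDomain O] [IsDiscreteValuationRing O]
  [IsAdicComplete (maximalIdeal O) O] [CharZero O] [Finite (ResidueField O)]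

/-- **Main assembly lemma.**  A continuous `R : Gal → GL_r(O)`, `r > 0`, with quadratic relations
at Frobenius elements outside `S`, gives a two-dimensional adic representation over a finite
extension `O₂` with determinant `d` and trace the scalar `R g + d g R g⁻¹`. -/
theorem exists_adic_of_frobenius_quadratic {S : Set ℕ} (hS : FrobGenerates S) {r : ℕ} (hr : 0 < r)
    (R : Gal →* Matrix (Fin r) (Fin r) O) (d : Gal →* O) (hR : EntryContinuous R)
    (hd : CharContinuous d)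
    (hfrob : ∀ φ : Gal, IsFrobOutside S φ → ∃ c : O, R φ + d φ • R φ⁻¹ = c • 1) :
    ∃ (O₂ : Type) (_ : CommRing O₂) (_ : IsDomain O₂) (_ : IsDiscreteValuationRing O₂)
      (_ : IsAdicComplete (maximalIdeal O₂) O₂) (_ : Finite (ResidueField O₂)) (_ : CharZero O₂)
      (_ : Algebra O O₂) (_ : Module.Finite O O₂) (_ : IsLocalHom (algebraMap O O₂)),
      Function.Injective (algebraMap O O₂) ∧ ∃ ρ : GaloisRepAdic O₂,
        (∀ (g : Gal) (c : O), R g + d g • R g⁻¹ = c • 1 → LinearMap.charpoly (ρ.ρ g) =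
          X ^ 2 - C (algebraMap O O₂ c) * X + C (algebraMap O O₂ (d g))) ∧
        ∀ σ, R σ = 1 → d σ = 1 → ρ.ρ σ = 1 := by
  let o : Fin r := ⟨0, hr⟩
  let t : Gal → O := fun g => (R g + d g • R g⁻¹) o o
  have hscal := scalar_of_frobenius hS R d hR hd hfrob o
  let F := AlgebraicClosure (FractionRing O)
  let ι : O →+* F := algebraMap O F
  let V := Fin r → F
  let ρV : Gal →* Module.End F V :=
    (Matrix.toLinAlgEquiv' (R := F) (n := Fin r)).toAlgHom.toRingHom.toMonoidHom.comp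
      (ι.mapMatrix.toMonoidHom.comp R)
  let dF : Gal →* F := ι.toMonoidHom.comp d
  have : Nonempty (Fin r) := ⟨o⟩
  have hρV : ∀ g, ρV g + dF g • ρV g⁻¹ = ι (t g) • (1 : Module.End F V) := fun g => by
    have h1 : (R g).map ι + ι (d g) • (R g⁻¹).map ι = ι (t g) • (1 : Matrix (Fin r) (Fin r) F) := by
      have := congrArg (fun M : Matrix (Fin r) (Fin r) O => M.map ι) (hscal g)
      ext i j
      have hij := Matrix.ext_iff.2 this i j
      simp only [Matrix.map_apply, Matrix.add_apply, Matrix.smul_apply, smul_eq_mul, map_add,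
        map_mul] at hij ⊢
      rw [hij]
      simp only [t, Matrix.one_apply, Matrix.add_apply, Matrix.smul_apply, smul_eq_mul, map_add,
          map_mul, apply_ite ι, map_one, map_zero]
    have := congrArg (Matrix.toLinAlgEquiv' (R := F) (n := Fin r)) h1
    rwa [map_add, map_smul, map_smul, map_one] at this
  obtain ⟨r₂, htr, hdet, -⟩ := EigenRep.exists_quadraticRep ρV dF fun g => ⟨_, hρV g⟩
  have ht : ∀ g, algebraMap O F (t g) = (r₂ g).trace := fun g =>
    smul_left_injective F (one_ne_zero : (1 : Module.End F V) ≠ 0) ((hρV g).symm.trans (htr g))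
  have hcont : TraceContinuous t := fun m => by
    obtain ⟨L, hL, hc⟩ := exists_field_operator_congr R d hR hd m
    exact ⟨L, hL, fun σ hσ g => hc (g * σ) g (fun x hx => by
      rw [AlgEquiv.mul_apply, hσ x hx]) o o⟩
  obtain ⟨O₂, i₁, i₂, i₃, i₄, i₅, i₆, i₇, i₈, i₉, hinj, ρ, hch, hun⟩ :=
    exists_adic_of_trace F t d r₂ ht (fun g => (hdet g).symm) hcont
  refine ⟨O₂, i₁, i₂, i₃, i₄, i₅, i₆, i₇, i₈, i₉, hinj, ρ, fun g c hgc => ?_, fun σ hRσ hdσ => ?_⟩
  · rw [hch g, show t g = c by simp only [t, hgc]; simp]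
  · refine hun σ fun g => ?_
    have hRσ' : R σ⁻¹ = 1 := by
      have : R σ * R σ⁻¹ = 1 := by rw [← map_mul, mul_inv_cancel, map_one]
      rwa [hRσ, one_mul] at this
    simp only [t, _root_.mul_inv_rev, map_mul, hRσ, hRσ', hdσ, mul_one, one_mul]

end Fermat.Agent.RepTheory
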