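import Fermat.Agent.RepTheory.MatrixRep
import Fermat.Prelude.Def_GaloisRep_Adic
import Mathlib.RingTheory.TensorProduct.Free
import Mathlib.FieldTheory.IsAlgClosed.AlgebraicClosure

/-!
# The matrix dictionary for `ResidualGaloisRep` and `GaloisRepAdic`

Absolute irreducibility gives full span (Burnside, Nakayama); trace uniqueness and Schur's lemma
follow.
-/

set_option autoImplicit false

open scoped TensorProduct

namespace Fermat.Agent.RepTheory

open Matrix

/-- The absolute Galois group of `ℚ`. -/
abbrev Gal : Type := AlgebraicClosure ℚ ≃ₐ[ℚ] AlgebraicClosure ℚ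

section Dictionary

variable {ι : Type*} [Fintype ι] [DecidableEq ι] {G : Type*} [Monoid G]
variable {A : Type*} [CommRing A] {V : Type*} [AddCommGroup V] [Module A V]

/-- The matrix representation attached to a basis. -/
noncomputable def matRep (b : Module.Basis ι A V) (ρ : G →* Module.End A V) :
    G →* Matrix ι ι A :=
  (LinearMap.toMatrixAlgEquiv b).toAlgHom.toRingHom.toMonoidHom.comp ρ

/-- Unfolding of `matRep`. -/
@[simp]
lemma matRep_apply (b : Module.Basis ι A V) (ρ : G →* Module.End A V) (g : G) :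
    matRep b ρ g = LinearMap.toMatrix b b (ρ g) := rfl

/-- The trace does not depend on the basis. -/
lemma trace_matRep (b : Module.Basis ι A V) (ρ : G →* Module.End A V) (g : G) :
    (matRep b ρ g).trace = LinearMap.trace A V (ρ g) := by
  rw [matRep_apply, LinearMap.trace_eq_matrix_trace A b]

/-- The determinant does not depend on the basis. -/
lemma det_matRep (b : Module.Basis ι A V) (ρ : G →* Module.End A V) (g : G) :
    (matRep b ρ g).det = LinearMap.det (ρ g) := by
  rw [matRep_apply, LinearMap.det_toMatrix]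

/-- The characteristic polynomial does not depend on the basis. -/
lemma charpoly_matRep [Module.Free A V] [Module.Finite A V] (b : Module.Basis ι A V)
    (ρ : G →* Module.End A V) (g : G) :
    (matRep b ρ g).charpoly = LinearMap.charpoly (ρ g) := by
  rw [matRep_apply, LinearMap.charpoly_toMatrix]

/-- Fullness of the matrices is full span of the endomorphisms. -/
lemma isFull_matRep_iff (b : Module.Basis ι A V) (ρ : G →* Module.End A V) :
    IsFull (matRep b ρ) ↔ Submodule.span A (Set.range ρ) = ⊤ := by
  have : Submodule.span A (Set.range (matRep b ρ)) =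
      (Submodule.span A (Set.range ρ)).map
        (LinearMap.toMatrixAlgEquiv b).toLinearEquiv.toLinearMap := by
    rw [Submodule.map_span, ← Set.range_comp]; rfl
  rw [IsFull, this, Submodule.map_eq_top_iff]

variable {W : Type*} [AddCommGroup W] [Module A W]

/-- A conjugating matrix between two matrix representations gives an intertwining isomorphism. -/
lemma exists_equiv_of_conj (b : Module.Basis ι A V) (c : Module.Basis ι A W)
    (ρ₁ : G →* Module.End A V) (ρ₂ : G →* Module.End A W) (P : (Matrix ι ι A)ˣ)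
    (hP : ∀ g, matRep c ρ₂ g * (P : Matrix ι ι A) = (P : Matrix ι ι A) * matRep b ρ₁ g) :
    ∃ e : V ≃ₗ[A] W, ∀ g x, e (ρ₁ g x) = ρ₂ g (e x) := by
  let f : V →ₗ[A] W := Matrix.toLin b c (P : Matrix ι ι A)
  let f' : W →ₗ[A] V := Matrix.toLin c b (↑P⁻¹ : Matrix ι ι A)
  have h₁ : f.comp f' = LinearMap.id := by
    rw [← Matrix.toLin_mul, Units.mul_inv, Matrix.toLin_one]
  have h₂ : f'.comp f = LinearMap.id := by
    rw [← Matrix.toLin_mul, Units.inv_mul, Matrix.toLin_one]
  refine ⟨LinearEquiv.ofLinearMap f f' h₁ h₂, fun g x => ?_⟩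
  have : f.comp (ρ₁ g) = (ρ₂ g).comp f := by
    apply (LinearMap.toMatrix b c).injective
    rw [LinearMap.toMatrix_comp b b c, LinearMap.toMatrix_comp b c c]
    simpa [f] using (hP g).symm
  exact LinearMap.congr_fun this x

lemma matRep_baseChange {B : Type*} [CommRing B] [Algebra A B] (b : Module.Basis ι A V)
    (ρ : G →* Module.End A V) (ρ' : G →* Module.End B (B ⊗[A] V))
    (h : ∀ g, ρ' g = (ρ g).baseChange B) :
    matRep (b.baseChange B) ρ' = mapRep (algebraMap A B) (matRep b ρ) := by
  ext1 g
  rw [matRep_apply, mapRep_apply, matRep_apply, h]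
  ext i j
  simp [LinearMap.toMatrix_apply, Algebra.algebraMap_eq_smul_one]

end Dictionary

section Residual

variable {k : Type} [Field k]

/-- A chosen basis of a residual representation. -/
noncomputable def resBasis (ρ : ResidualGaloisRep k) : Module.Basis (Fin 2) k ρ.V :=
  Module.finBasisOfFinrankEq k ρ.V ρ.finrank_eq

/-- Irreducibility over an algebraically closed field gives full span. -/
lemma isFull_of_isIrreducible [IsAlgClosed k] (ρ : ResidualGaloisRep k) (h : ρ.IsIrreducible)
    (b : Module.Basis (Fin 2) k ρ.V) : IsFull (matRep b ρ.ρ) := by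
  refine isFull_of_isAlgClosed _ fun W hW => ?_
  have key : ∀ g x, b.equivFun (ρ.ρ g x) = matRep b ρ.ρ g *ᵥ b.equivFun x := fun g x => by
    rw [matRep_apply]; exact (LinearMap.toMatrix_mulVec_repr b b (ρ.ρ g) x).symm
  rcases h (W.comap b.equivFun.toLinearMap) (fun g x hx => by
    simp only [Submodule.mem_comap, LinearEquiv.coe_coe] at hx ⊢
    rw [key]; exact hW g _ hx) with h0 | h0
  · left
    refine Submodule.comap_injective_of_surjective b.equivFun.surjective ?_
    rw [h0]; ext x; simp
  · right
    refine Submodule.comap_injective_of_surjective b.equivFun.surjective ?_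
    rw [h0]; ext x; simp

/-- **Burnside** for residual representations. -/
theorem isFull_of_isAbsolutelyIrreducible (ρ : ResidualGaloisRep k)
    (h : ρ.IsAbsolutelyIrreducible) (b : Module.Basis (Fin 2) k ρ.V) :
    IsFull (matRep b ρ.ρ) := by
  have := isFull_of_isIrreducible (ρ.baseChange (AlgebraicClosure k)) h
    (b.baseChange (AlgebraicClosure k))
  rw [matRep_baseChange b ρ.ρ _ (fun _ => rfl)] at this
  exact this.of_map _

/-- A full residual representation is irreducible. -/
theorem isIrreducible_of_span_eq_top (ρ : ResidualGaloisRep k)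
    (h : Submodule.span k (Set.range ρ.ρ) = ⊤) : ρ.IsIrreducible := by
  intro W hW
  refine or_iff_not_imp_left.2 fun hne => eq_top_iff.2 fun y _ => ?_
  obtain ⟨x, hx, hx0⟩ := W.ne_bot_iff.1 hne
  obtain ⟨φ, hφ⟩ : ∃ φ : ρ.V →ₗ[k] k, φ x = 1 := by
    obtain ⟨φ, hφ⟩ := Module.Projective.exists_dual_ne_zero k hx0
    exact ⟨(φ x)⁻¹ • φ, by simp [hφ]⟩
  have hmem : φ.smulRight y ∈ Submodule.span k (Set.range ρ.ρ) := by rw [h]; trivial
  have hall : ∀ f ∈ Submodule.span k (Set.range ρ.ρ), f x ∈ W := fun f hf => by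
    induction hf using Submodule.span_induction with
    | mem z hz => obtain ⟨g, rfl⟩ := hz; exact hW g x hx
    | zero => simp
    | add a b _ _ ha hb => simpa using W.add_mem ha hb
    | smul a z _ hz => simpa using W.smul_mem a hz
  simpa [hφ] using hall _ hmem

/-- A representation whose image spans the endomorphisms is absolutely irreducible. -/
theorem isAbsolutelyIrreducible_of_span_eq_top (ρ : ResidualGaloisRep k)
    (h : Submodule.span k (Set.range ρ.ρ) = ⊤) : ρ.IsAbsolutelyIrreducible := by
  refine isIrreducible_of_span_eq_top _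
    ((isFull_matRep_iff ((resBasis ρ).baseChange (AlgebraicClosure k)) _).1 ?_)
  rw [matRep_baseChange (resBasis ρ) ρ.ρ _ (fun _ => rfl)]
  exact ((isFull_matRep_iff _ _).2 h).map _

/-- **Brauer–Nesbitt** (absolutely irreducible case): equal traces give an equivalence. -/
theorem residual_isEquiv_of_trace_eq (ρ₁ ρ₂ : ResidualGaloisRep k)
    (h : ρ₁.IsAbsolutelyIrreducible)
    (htr : ∀ g : Gal, LinearMap.trace k ρ₁.V (ρ₁.ρ g) = LinearMap.trace k ρ₂.V (ρ₂.ρ g)) :
    ρ₁.IsEquiv ρ₂ := by
  obtain ⟨P, hP⟩ := (isFull_of_isAbsolutelyIrreducible ρ₁ h (resBasis ρ₁)).exists_conj_of_trace_eq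
    (ρ₂ := matRep (resBasis ρ₂) ρ₂.ρ) fun g => by rw [trace_matRep, trace_matRep, htr]
  obtain ⟨e, he⟩ := exists_equiv_of_conj _ _ _ _ P hP
  exact ⟨⟨e, he⟩⟩

/-- Absolute irreducibility survives extension of scalars. -/
theorem isAbsolutelyIrreducible_baseChangeAlong {k' : Type} [Field k'] (φ : k →+* k')
    (ρ : ResidualGaloisRep k) (h : ρ.IsAbsolutelyIrreducible) :
    (ρ.baseChangeAlong φ).IsAbsolutelyIrreducible := by
  let _ : Algebra k k' := φ.toAlgebra
  change (ρ.baseChange k').IsAbsolutelyIrreducible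
  refine isAbsolutelyIrreducible_of_span_eq_top _
    ((isFull_matRep_iff ((resBasis ρ).baseChange k') _).1 ?_)
  rw [matRep_baseChange (resBasis ρ) ρ.ρ _ (fun _ => rfl)]
  exact (isFull_of_isAbsolutelyIrreducible ρ h _).map _

/-- Absolute irreducibility is invariant under equivalence. -/
theorem isAbsolutelyIrreducible_of_isEquiv {ρ₁ ρ₂ : ResidualGaloisRep k} (he : ρ₁.IsEquiv ρ₂)
    (h : ρ₁.IsAbsolutelyIrreducible) : ρ₂.IsAbsolutelyIrreducible := by
  obtain ⟨e⟩ := he
  refine isAbsolutelyIrreducible_of_span_eq_top _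
    ((isFull_matRep_iff ((resBasis ρ₁).map e.toLinearEquiv) _).1 ?_)
  have heq : matRep ((resBasis ρ₁).map e.toLinearEquiv) ρ₂.ρ = matRep (resBasis ρ₁) ρ₁.ρ := by
    ext1 g
    ext i j
    simp [LinearMap.toMatrix_apply, ← e.map_apply]
  rw [heq]
  exact isFull_of_isAbsolutelyIrreducible ρ₁ h _

end Residual

section Adic

variable {A : Type} [CommRing A] [IsLocalRing A]

/-- A chosen basis of an adic representation. -/
noncomputable def adicBasis (ρ : GaloisRepAdic A) : Module.Basis (Fin 2) A ρ.V :=
  Module.finBasisOfFinrankEq A ρ.V ρ.finrank_eq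

/-- The matrices of the residual representation are the reductions. -/
lemma matRep_residual (ρ : GaloisRepAdic A) (b : Module.Basis (Fin 2) A ρ.V) :
    matRep (b.baseChange (IsLocalRing.ResidueField A)) ρ.residual.ρ =
      mapRep (IsLocalRing.residue A) (matRep b ρ.ρ) :=
  matRep_baseChange b ρ.ρ _ (fun _ => rfl)

/-- Residual absolute irreducibility gives full span over the coefficient ring. -/
theorem isFull_of_residual_absIrr (ρ : GaloisRepAdic A)
    (h : ρ.residual.IsAbsolutelyIrreducible) (b : Module.Basis (Fin 2) A ρ.V) :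
    IsFull (matRep b ρ.ρ) := by
  refine IsFull.of_residual ?_
  rw [← matRep_residual]
  exact isFull_of_isAbsolutelyIrreducible _ h _

/-- A residually absolutely irreducible adic representation has full span. -/
theorem adic_span_eq_top (ρ : GaloisRepAdic A) (h : ρ.residual.IsAbsolutelyIrreducible) :
    Submodule.span A (Set.range ρ.ρ) = ⊤ :=
  (isFull_matRep_iff (adicBasis ρ) ρ.ρ).1 (isFull_of_residual_absIrr ρ h _)

/-- **Carayol / Mazur**: residually absolutely irreducible representations with equal traces are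
equivalent. -/
theorem adic_isEquiv_of_trace_eq (ρ₁ ρ₂ : GaloisRepAdic A)
    (h : ρ₁.residual.IsAbsolutelyIrreducible) (htr : ∀ g, ρ₁.trace g = ρ₂.trace g) :
    ρ₁.IsEquiv ρ₂ := by
  obtain ⟨P, hP⟩ := (isFull_of_residual_absIrr ρ₁ h (adicBasis ρ₁)).exists_conj_of_trace_eq
    (ρ₂ := matRep (adicBasis ρ₂) ρ₂.ρ) fun g => by
      rw [trace_matRep, trace_matRep]; exact htr g
  obtain ⟨e, he⟩ := exists_equiv_of_conj _ _ _ _ P hP
  exact ⟨⟨e, he⟩⟩

end Adic

end Fermat.Agent.RepTheory
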