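import Mathlib.RingTheory.DedekindDomain.IntegralClosure
import Mathlib.RingTheory.DiscreteValuationRing.TFAE
import Mathlib.FieldTheory.Perfect
import Mathlib.FieldTheory.IsAlgClosed.AlgebraicClosure
import Mathlib.RingTheory.Finiteness.Quotient
import Fermat.Prelude.Thm_IsLocalRing_isAdicComplete_of_module_finite
import Fermat.Prelude.Thm_Algebra_finite_maximalSpectrum_and_bijective_localization_of_module_finite

/-!
# The integral closure of a complete DVR in a finite extension is again a complete DVR

For a complete DVR `O` of characteristic zero and a finite extension `L` of its fraction field,
`integralClosure O L` is finite over `O`, a complete DVR with fraction field `L`, and its residue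
field is finite when that of `O` is.
-/

set_option autoImplicit false

open IsLocalRing

namespace Fermat.Agent.RepTheory

/-- A domain finite over a complete Noetherian local ring is local. -/
theorem isLocalRing_of_finite_isDomain (O : Type) [CommRing O] [IsLocalRing O] [IsNoetherianRing O]
    [IsAdicComplete (maximalIdeal O) O] (A : Type) [CommRing A] [IsDomain A] [Algebra O A]
    [Module.Finite O A] : IsLocalRing A := by
  classical
  obtain ⟨-, hbij, -, -⟩ :=
    Algebra.finite_maximalSpectrum_and_bijective_localization_of_module_finite (𝒪 := O) A
  refine IsLocalRing.of_unique_max_ideal ?_
  obtain ⟨m, hm⟩ := Ideal.exists_maximal A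
  refine ⟨m, hm, fun n hn => ?_⟩
  by_contra hne
  set I : MaximalSpectrum A := ⟨m, hm⟩
  set J : MaximalSpectrum A := ⟨n, hn⟩
  have hIJ : J ≠ I := fun h => hne (congrArg MaximalSpectrum.asIdeal h)
  -- the element supported at one factor is a nontrivial idempotent
  obtain ⟨e, he⟩ := hbij.2 fun K => if K = I then 1 else 0
  have hee : e * e = e := hbij.1 (by
    rw [map_mul, he]; ext K; simp only [Pi.mul_apply]; split_ifs <;> simp)
  rcases mul_eq_zero.1 (show e * (e - 1) = 0 by rw [mul_sub, mul_one, hee, sub_self]) with h | h
  · have := congrFun he I
    simp [h] at this
  · rw [sub_eq_zero] at h
    have := congrFun he J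
    simp [h, hIJ] at this

variable (O : Type) [CommRing O] [IsDomain O] (L : Type) [Field L] [Algebra O L]
  [Algebra (FractionRing O) L] [IsScalarTower O (FractionRing O) L]
  [FiniteDimensional (FractionRing O) L] [IsDiscreteValuationRing O]

omit [FiniteDimensional (FractionRing O) L] in
lemma algebraMap_finiteExt_injective : Function.Injective (algebraMap O L) := by
  rw [IsScalarTower.algebraMap_eq O (FractionRing O) L]
  exact (algebraMap (FractionRing O) L).injective.comp (IsFractionRing.injective O _)

omit [FiniteDimensional (FractionRing O) L] in
/-- `O` embeds in the integral closure. -/
lemma algebraMap_integralClosure_injective :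
    Function.Injective (algebraMap O (integralClosure O L)) := fun _ _ h =>
  algebraMap_finiteExt_injective O L (congrArg Subtype.val h)

omit [IsDiscreteValuationRing O] in
/-- `L` is the fraction field of the integral closure. -/
theorem isFractionRing_integralClosure : IsFractionRing (integralClosure O L) L :=
  integralClosure.isFractionRing_of_finite_extension (FractionRing O) L

omit [FiniteDimensional (FractionRing O) L] in
/-- The integral closure has characteristic zero. -/
theorem charZero_integralClosure [CharZero O] : CharZero (integralClosure O L) :=
  charZero_of_injective_algebraMap (algebraMap_integralClosure_injective O L)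

/-- The integral closure is finite over `O`. -/
theorem finite_integralClosure [CharZero O] : Module.Finite O (integralClosure O L) :=
  have : CharZero (FractionRing O) :=
    charZero_of_injective_algebraMap (IsFractionRing.injective O _)
  IsIntegralClosure.finite O (FractionRing O) L (integralClosure O L)

omit [FiniteDimensional (FractionRing O) L] in
/-- The inclusion in the integral closure is local. -/
theorem isLocalHom_integralClosure : IsLocalHom (algebraMap O (integralClosure O L)) :=
  RingHom.IsIntegral.isLocalHom (fun x => Algebra.IsIntegral.isIntegral x)
    (algebraMap_integralClosure_injective O L)

variable [CharZero O] [IsAdicComplete (maximalIdeal O) O]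

/-- The integral closure of a complete DVR is local. -/
theorem isLocalRing_integralClosure : IsLocalRing (integralClosure O L) :=
  have := finite_integralClosure O L
  isLocalRing_of_finite_isDomain O (integralClosure O L)

/-- The integral closure of a complete DVR is a DVR. -/
theorem isDiscreteValuationRing_integralClosure :
    IsDiscreteValuationRing (integralClosure O L) := by
  have : CharZero (FractionRing O) :=
    charZero_of_injective_algebraMap (IsFractionRing.injective O _)
  have := isLocalRing_integralClosure O L
  have : IsDedekindDomain (integralClosure O L) :=
    integralClosure.isDedekindDomain O (FractionRing O) L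
  have := isLocalHom_integralClosure O L
  refine
    { not_a_field' := fun h =>
        IsDiscreteValuationRing.not_a_field O (eq_bot_iff.2 fun x hx => ?_) }
  have : algebraMap O (integralClosure O L) x ∈ maximalIdeal (integralClosure O L) :=
    map_nonunit (algebraMap O (integralClosure O L)) x hx
  rw [h, Submodule.mem_bot] at this
  exact (map_eq_zero_iff _ (algebraMap_integralClosure_injective O L)).1 this

/-- The integral closure of a complete DVR is complete. -/
theorem isAdicComplete_integralClosure [IsLocalRing (integralClosure O L)] :
    IsAdicComplete (maximalIdeal (integralClosure O L)) (integralClosure O L) :=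
  have := finite_integralClosure O L
  have := isLocalHom_integralClosure O L
  IsLocalRing.isAdicComplete_of_module_finite (𝒪 := O)

omit [IsAdicComplete (maximalIdeal O) O] in
/-- Finiteness of the residue field passes to the integral closure. -/
theorem finite_residueField_integralClosure [Finite (ResidueField O)]
    [IsLocalRing (integralClosure O L)] : Finite (ResidueField (integralClosure O L)) := by
  have := finite_integralClosure O L
  have := isLocalHom_integralClosure O L
  exact Module.finite_of_finite (ResidueField O)

end Fermat.Agent.RepTheory
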