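import Fermat.Agent.RepTheory.FrobTrace
import Mathlib.RingTheory.Henselian

/-!
# Descent of two-dimensional representations to the ring of traces (Carayol)

A two-dimensional representation over a local ring `A` with traces in a Henselian local ring `B`,
residually full with entries in the residue field of `B`, is conjugate to a representation over `B`
(`exists_descent`).
-/

set_option autoImplicit false

open Matrix Polynomial

namespace Fermat.Agent.RepTheory

variable {G : Type*} [Monoid G] {B : Type*} [CommRing B]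
variable {A : Type*} [CommRing A] [Algebra B A]

lemma trace_mem_range_of_mem_adjoin (ρ : G →* Matrix (Fin 2) (Fin 2) A)
    (htr : ∀ g, (ρ g).trace ∈ Set.range (algebraMap B A)) {r : Matrix (Fin 2) (Fin 2) A}
    (hr : r ∈ Algebra.adjoin B (Set.range ρ)) : r.trace ∈ (algebraMap B A).range := by
  rw [← MonoidHom.coe_mrange, ← Subalgebra.mem_toSubmodule, Algebra.adjoin_eq_span,
    Submonoid.closure_eq] at hr
  induction hr using Submodule.span_induction with
  | mem x hx => obtain ⟨g, rfl⟩ := hx; exact htr g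
  | zero => simp
  | add x y _ _ hx hy => rw [trace_add]; exact add_mem hx hy
  | smul a x _ hx =>
    rw [trace_smul, Algebra.smul_def]
    exact mul_mem ⟨a, rfl⟩ hx

variable [IsLocalRing A] [IsLocalHom (algebraMap B A)]

omit [IsLocalHom (algebraMap B A)] in
/-- An element of `B` lies in the maximal ideal if its image does. -/
lemma mem_maximalIdeal_of_map [IsLocalRing B] {x : B}
    (h : IsLocalRing.residue A (algebraMap B A x) = 0) : x ∈ IsLocalRing.maximalIdeal B := by
  rw [IsLocalRing.mem_maximalIdeal]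
  intro hu
  exact IsLocalRing.notMem_maximalIdeal.2 (hu.map (algebraMap B A))
    ((IsLocalRing.residue_eq_zero_iff _).1 h)

/-- The residual span condition in lifted form. -/
lemma exists_lift_single [IsLocalRing B] (ρ : G →* Matrix (Fin 2) (Fin 2) A)
    (hent : ∀ g i j, IsLocalRing.residue A (ρ g i j) ∈
      ((IsLocalRing.residue A).comp (algebraMap B A)).range)
    (hfull : IsFull (mapRep (IsLocalRing.residue A) ρ)) (a b : Fin 2) :
    ∃ x ∈ Algebra.adjoin B (Set.range ρ),
      x.map (IsLocalRing.residue A) = Matrix.single a b 1 := by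
  let kB := IsLocalRing.ResidueField B
  let f : kB →+* IsLocalRing.ResidueField A := IsLocalRing.ResidueField.map (algebraMap B A)
  have hf : ∀ g i j, IsLocalRing.residue A (ρ g i j) ∈ f.range := fun g i j => by
    obtain ⟨c, hc⟩ := hent g i j
    exact ⟨IsLocalRing.residue B c, hc⟩
  choose e he using hf
  let ρ₀ : G →* Matrix (Fin 2) (Fin 2) kB :=
    { toFun := fun g => Matrix.of (e g)
      map_one' := by
        refine Matrix.map_injective f.injective ?_
        beta_reduce
        rw [Matrix.map_one f (map_zero f) (map_one f)]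
        ext i j
        simp [he, Matrix.one_apply, apply_ite (IsLocalRing.residue A)]
      map_mul' := fun g g' => by
        refine Matrix.map_injective f.injective ?_
        beta_reduce
        rw [Matrix.map_mul]
        ext i j
        simp [he, Matrix.mul_apply] }
  have hρ₀ : mapRep f ρ₀ = mapRep (IsLocalRing.residue A) ρ := by
    ext g i j; exact he g i j
  have hfull₀ : IsFull ρ₀ := IsFull.of_map f (hρ₀ ▸ hfull)
  have key : ∀ X ∈ Submodule.span kB (Set.range ρ₀),
      ∃ x ∈ Algebra.adjoin B (Set.range ρ), x.map (IsLocalRing.residue A) = X.map f :=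
    fun X hX => by
    induction hX using Submodule.span_induction with
    | mem z hz =>
      obtain ⟨g, rfl⟩ := hz
      exact ⟨ρ g, Algebra.subset_adjoin ⟨g, rfl⟩, (DFunLike.congr_fun hρ₀ g).symm⟩
    | zero => exact ⟨0, Subalgebra.zero_mem _, by ext; simp⟩
    | add z z' _ _ hz hz' =>
      obtain ⟨x, hx, hxz⟩ := hz; obtain ⟨x', hx', hxz'⟩ := hz'
      refine ⟨x + x', Subalgebra.add_mem _ hx hx', ?_⟩
      rw [Matrix.map_add _ (map_add _), Matrix.map_add _ (map_add _), hxz, hxz']
    | smul c z _ hz =>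
      obtain ⟨x, hx, hxz⟩ := hz
      obtain ⟨c, rfl⟩ := IsLocalRing.residue_surjective c
      refine ⟨c • x, Subalgebra.smul_mem _ hx c, ?_⟩
      ext i j
      have := Matrix.ext_iff.2 hxz i j
      simp only [Matrix.map_apply] at this
      rw [Matrix.map_apply, Matrix.map_apply, Matrix.smul_apply, Matrix.smul_apply,
          Algebra.smul_def, smul_eq_mul, map_mul, map_mul, this]
      rfl
  obtain ⟨x, hx, hxX⟩ := key (Matrix.single a b 1) (by rw [hfull₀]; trivial)
  exact ⟨x, hx, by rw [hxX, Matrix.map_single]; simp⟩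

omit [Algebra B A] [IsLocalHom (algebraMap B A)] in
/-- A matrix congruent to `1` is invertible. -/
lemma isUnit_of_residue_eq_one {M : Matrix (Fin 2) (Fin 2) A}
    (hM : (IsLocalRing.residue A).mapMatrix M = 1) : IsUnit M := by
  rw [Matrix.isUnit_iff_isUnit_det]
  refine by_contra fun hu => one_ne_zero (α := IsLocalRing.ResidueField A) ?_
  rw [← Matrix.det_one (n := Fin 2), ← hM, ← RingHom.map_det]
  exact (IsLocalRing.residue_eq_zero_iff _).2 hu

omit [IsLocalRing A] [IsLocalHom (algebraMap B A)] in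
/-- If the powers of `x` have traces in `B` and the trace of `x` is a unit of `B`, then the
determinant of `x` is in `B`. -/
lemma exists_det_eq {x : Matrix (Fin 2) (Fin 2) A} {t t₂ t₃ : B} (htu : IsUnit t)
    (ht : algebraMap B A t = x.trace) (ht₂ : algebraMap B A t₂ = (x ^ 2).trace)
    (ht₃ : algebraMap B A t₃ = (x ^ 3).trace) : ∃ d : B, algebraMap B A d = x.det := by
  refine ⟨↑htu.unit⁻¹ * (t * t₂ - t₃), ?_⟩
  have h3 : (x ^ 3).trace = x.trace * (x ^ 2).trace - x.det * x.trace := by
    simpa using trace_pow_add_two x 1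
  rw [← ht₂, ← ht₃, ← ht] at h3
  have hu : algebraMap B A ↑htu.unit⁻¹ * algebraMap B A t = 1 := by
    rw [← map_mul, htu.val_inv_mul, map_one]
  calc algebraMap B A (↑htu.unit⁻¹ * (t * t₂ - t₃)) =
        algebraMap B A ↑htu.unit⁻¹ * (algebraMap B A t * x.det) := by
        rw [map_mul, map_sub, map_mul]; congr 1; linear_combination -h3
    _ = x.det := by rw [← mul_assoc, hu, one_mul]

omit [Algebra B A] [IsLocalRing A] [IsLocalHom (algebraMap B A)] in
/-- For `t ≡ 1` and `d ≡ 0`, `X² - t X + d` has a root `l ≡ 1` in a Henselian local ring. -/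
lemma exists_root_near_one [HenselianLocalRing B] {t d : B}
    (ht : t - 1 ∈ IsLocalRing.maximalIdeal B) (hd : d ∈ IsLocalRing.maximalIdeal B) :
    ∃ l : B, l * l - t * l + d = 0 ∧ l - 1 ∈ IsLocalRing.maximalIdeal B := by
  obtain ⟨l, hl, hl1⟩ := HenselianLocalRing.is_henselian (X ^ 2 - C t * X + C d)
    (by monicity!) 1
    (by
      have : (X ^ 2 - C t * X + C d : B[X]).eval 1 = d - (t - 1) := by simp; ring
      rw [this]; exact sub_mem hd ht)
    (by
      have : (X ^ 2 - C t * X + C d : B[X]).derivative.eval 1 = 1 - (t - 1) := by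
        simp; ring
      rw [this]; exact IsLocalRing.isUnit_one_sub_self_of_mem_nonunits _
        ((IsLocalRing.mem_maximalIdeal _).1 ht))
  exact ⟨l, by simpa [IsRoot, pow_two] using hl, hl1⟩

/-- A residual rank one idempotent lifts to an idempotent of a `B`-algebra of matrices with traces
in `B`. -/
lemma exists_idempotent_lift [HenselianLocalRing B] {R : Subalgebra B (Matrix (Fin 2) (Fin 2) A)}
    (tr : ∀ r ∈ R, r.trace ∈ (algebraMap B A).range) {x : Matrix (Fin 2) (Fin 2) A} (hx : x ∈ R)
    (hxres : x.map (IsLocalRing.residue A) = Matrix.single 0 0 1) :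
    ∃ e ∈ R, e * e = e ∧ e.map (IsLocalRing.residue A) = Matrix.single 0 0 1 := by
  set al := algebraMap B A
  set res := IsLocalRing.residue A
  obtain ⟨t, ht⟩ := tr x hx
  obtain ⟨t2, ht2⟩ := tr (x ^ 2) (pow_mem hx 2)
  obtain ⟨t3, ht3⟩ := tr (x ^ 3) (pow_mem hx 3)
  have h00 := Matrix.ext_iff.2 hxres 0 0
  have h01 := Matrix.ext_iff.2 hxres 0 1
  have h11 := Matrix.ext_iff.2 hxres 1 1
  simp only [Matrix.map_apply, Matrix.single_apply] at h00 h01 h11
  have hxt : res (al t) = 1 := by
    rw [ht, Matrix.trace_fin_two, map_add]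
    simp [h00, h11]
  have htu : IsUnit t := by
    refine IsUnit.of_map al t (by_contra fun h => one_ne_zero
      (hxt.symm.trans ((IsLocalRing.residue_eq_zero_iff _).2 h)))
  obtain ⟨d, hd⟩ := exists_det_eq htu ht ht2 ht3
  have hxd : res (al d) = 0 := by
    rw [hd, Matrix.det_fin_two, map_sub, map_mul, map_mul]
    simp [h01, h11]
  have ht1 : t - 1 ∈ IsLocalRing.maximalIdeal B := mem_maximalIdeal_of_map (A := A) (by
    rw [map_sub, map_one, map_sub, map_one, hxt, sub_self])
  obtain ⟨l, hroot, hl1⟩ := exists_root_near_one ht1 (mem_maximalIdeal_of_map (A := A) hxd)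
  have hresl : res (al l) = 1 := by
    by_contra hne
    have : IsUnit (al (l - 1)) := by
      rw [map_sub, map_one]
      refine by_contra fun h => hne ?_
      rw [← sub_eq_zero, ← map_one res, ← map_sub]
      exact (IsLocalRing.residue_eq_zero_iff _).2 h
    exact (IsLocalRing.mem_maximalIdeal _).1 hl1 (IsUnit.of_map al _ this)
  set w := l - (t - l) with hw
  have h2 : res (al w) = 1 := by rw [hw]; simp [hresl, hxt]
  have hwu : IsUnit w := IsUnit.of_map al w (by_contra fun h => one_ne_zero
    (h2.symm.trans ((IsLocalRing.residue_eq_zero_iff _).2 h)))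
  refine ⟨(↑hwu.unit⁻¹ : B) • (x - (t - l) • 1),
    Subalgebra.smul_mem _ (sub_mem hx (Subalgebra.smul_mem _ (one_mem _) _)) _, ?_, ?_⟩
  · have hxx : x * x = t • x - d • 1 := by
      rw [← algebraMap_smul A t x, ← algebraMap_smul A d (1 : Matrix (Fin 2) (Fin 2) A),
        show algebraMap B A t = x.trace from ht, show algebraMap B A d = x.det from hd]
      ext i j
      fin_cases i <;> fin_cases j <;>
        simp [Matrix.mul_apply, Fin.sum_univ_two, Matrix.trace_fin_two, Matrix.det_fin_two] <;> ring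
    have hsq : (x - (t - l) • 1) * (x - (t - l) • 1) = w • (x - (t - l) • 1) := by
      have hdl : d = t * l - l * l := by linear_combination hroot
      simp only [sub_mul, mul_sub, smul_mul_assoc, mul_smul_comm, one_mul, mul_one, hxx, hw, hdl]
      module
    rw [smul_mul_assoc, mul_smul_comm, hsq, smul_smul, smul_smul, mul_assoc,
      hwu.val_inv_mul, mul_one]
  · have hw1 : res (al ↑hwu.unit⁻¹) = 1 := by
      have := congrArg res (show al ↑hwu.unit⁻¹ * al w = 1 by
        rw [← map_mul, hwu.val_inv_mul, map_one])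
      rwa [map_mul, h2, mul_one, map_one] at this
    rw [← hxres]; ext i j
    rw [Matrix.map_apply, Matrix.smul_apply, Matrix.sub_apply, Matrix.smul_apply,
      Algebra.smul_def, Algebra.smul_def]
    simp only [Matrix.map_apply, map_mul, map_sub, hw1, one_mul, al, res]
    rw [show (IsLocalRing.residue A) ((algebraMap B A) t) -
        (IsLocalRing.residue A) ((algebraMap B A) l) = 0 by rw [hxt, hresl, sub_self],
      zero_mul, sub_zero]

omit [Algebra B A] [IsLocalHom (algebraMap B A)] in
/-- An idempotent congruent to `E₀₀` is conjugate to it by a matrix congruent to `1`. -/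
lemma exists_adapted_basis {e : Matrix (Fin 2) (Fin 2) A} (hee : e * e = e)
    (he : e.map (IsLocalRing.residue A) = Matrix.single 0 0 1) :
    ∃ U : (Matrix (Fin 2) (Fin 2) A)ˣ,
      (IsLocalRing.residue A).mapMatrix (U : Matrix (Fin 2) (Fin 2) A) = 1 ∧
      (↑U⁻¹ : Matrix (Fin 2) (Fin 2) A) * e * (U : Matrix (Fin 2) (Fin 2) A) =
        Matrix.single 0 0 1 := by
  set P₀ := e * Matrix.single 0 0 1 + (1 - e) * Matrix.single 1 1 1 with hP₀
  have hP₀res : (IsLocalRing.residue A).mapMatrix P₀ = 1 := by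
    rw [hP₀, map_add, map_mul, map_mul, map_sub, map_one, RingHom.mapMatrix_apply,
      RingHom.mapMatrix_apply, RingHom.mapMatrix_apply, he, Matrix.map_single, Matrix.map_single]
    ext i j
    fin_cases i <;> fin_cases j <;> simp [Matrix.mul_apply, Matrix.single_apply]
  obtain ⟨U, hU⟩ := isUnit_of_residue_eq_one hP₀res
  refine ⟨U, hU ▸ hP₀res, ?_⟩
  have h : e * P₀ = P₀ * Matrix.single 0 0 1 := by
    rw [hP₀, mul_add, add_mul, ← mul_assoc, hee, ← mul_assoc, mul_sub, mul_one, hee, sub_self,
      zero_mul, mul_assoc, mul_assoc]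
    simp
  rw [mul_assoc, hU, h, ← hU, Units.inv_mul_cancel_left]

/-- A `B`-algebra of matrices with traces in `B` that contains `E₀₀` and is residually full has
its diagonal in `B` and, after one rescaling `a ≡ 1`, also its off-diagonal entries. -/
lemma exists_scale_of_single_mem {R : Subalgebra B (Matrix (Fin 2) (Fin 2) A)}
    (tr : ∀ r ∈ R, r.trace ∈ (algebraMap B A).range)
    (hE : Matrix.single (0 : Fin 2) (0 : Fin 2) (1 : A) ∈ R)
    {x10 x01 : Matrix (Fin 2) (Fin 2) A} (hx10 : x10 ∈ R) (hx01 : x01 ∈ R)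
    (hres10 : x10.map (IsLocalRing.residue A) = Matrix.single 1 0 1)
    (hres01 : x01.map (IsLocalRing.residue A) = Matrix.single 0 1 1) :
    ∃ a : A, IsLocalRing.residue A a = 1 ∧ ∀ M ∈ R,
      M 0 0 ∈ (algebraMap B A).range ∧ M 0 1 * a ∈ (algebraMap B A).range ∧
      M 1 1 ∈ (algebraMap B A).range ∧ ∀ s, M 1 0 = a * s → s ∈ (algebraMap B A).range := by
  set al := algebraMap B A
  set E₀ : Matrix (Fin 2) (Fin 2) A := Matrix.single 0 0 1
  set a := x10 1 0
  set b := x01 0 1
  have hy10 : Matrix.single 1 0 a ∈ R := by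
    have h : Matrix.single 1 0 a = (1 - E₀) * x10 * E₀ := by
      ext i j; fin_cases i <;> fin_cases j <;>
        simp [E₀, Matrix.mul_apply, Matrix.single_apply, a]
    rw [h]; exact mul_mem (mul_mem (sub_mem (one_mem _) hE) hx10) hE
  have hy01 : Matrix.single 0 1 b ∈ R := by
    have h : Matrix.single 0 1 b = E₀ * x01 * (1 - E₀) := by
      ext i j; fin_cases i <;> fin_cases j <;>
        simp [E₀, Matrix.mul_apply, Matrix.single_apply, b]
    rw [h]; exact mul_mem (mul_mem hE hx01) (sub_mem (one_mem _) hE)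
  have hra : IsLocalRing.residue A a = 1 := by
    simpa [a] using Matrix.ext_iff.2 hres10 1 0
  have hrb : IsLocalRing.residue A b = 1 := by
    simpa [b] using Matrix.ext_iff.2 hres01 0 1
  obtain ⟨c, hc⟩ := tr _ (mul_mem hy01 hy10)
  have hcab : al c = b * a := by rw [hc]; simp
  have hcu : IsUnit c := by
    refine IsUnit.of_map al c ?_
    rw [hcab]
    refine by_contra fun hu => one_ne_zero (α := IsLocalRing.ResidueField A) ?_
    rw [← (IsLocalRing.residue_eq_zero_iff (b * a)).2 hu, map_mul, hra, hrb, mul_one]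
  refine ⟨a, hra, fun M hM => ?_⟩
  have m00 : M 0 0 ∈ al.range := by
    simpa [E₀, Matrix.trace_mul_single] using tr _ (mul_mem hM hE)
  refine ⟨m00, ?_, ?_, fun s hs => ?_⟩
  · simpa [Matrix.trace_mul_single] using tr _ (mul_mem hM hy10)
  · simpa [Matrix.trace_fin_two] using sub_mem (tr _ hM) m00
  · obtain ⟨u, hu⟩ := tr _ (mul_mem hM hy01)
    refine ⟨↑hcu.unit⁻¹ * u, ?_⟩
    have hcc : al ↑hcu.unit⁻¹ * al c = 1 := by rw [← map_mul, hcu.val_inv_mul, map_one]
    calc al (↑hcu.unit⁻¹ * u) = al ↑hcu.unit⁻¹ * (b * (a * s)) := by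
          rw [map_mul, hu, ← hs]; simp [Matrix.trace_mul_single, mul_comm]
      _ = (al ↑hcu.unit⁻¹ * al c) * s := by rw [hcab]; ring
      _ = s := by rw [hcc, one_mul]

omit [IsLocalRing A] [IsLocalHom (algebraMap B A)] in
/-- Conjugation respects the algebra generated by a representation. -/
lemma conj_mem_adjoin {ρ ρ' : G →* Matrix (Fin 2) (Fin 2) A} (U : (Matrix (Fin 2) (Fin 2) A)ˣ)
    (h : ∀ g, ρ' g = (↑U⁻¹ : Matrix (Fin 2) (Fin 2) A) * ρ g * (U : Matrix (Fin 2) (Fin 2) A))
    {r : Matrix (Fin 2) (Fin 2) A} (hr : r ∈ Algebra.adjoin B (Set.range ρ)) :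
    (↑U⁻¹ : Matrix (Fin 2) (Fin 2) A) * r * (U : Matrix (Fin 2) (Fin 2) A) ∈
      Algebra.adjoin B (Set.range ρ') := by
  induction hr using Algebra.adjoin_induction with
  | mem x hx => obtain ⟨g, rfl⟩ := hx; exact Algebra.subset_adjoin ⟨g, h g⟩
  | algebraMap c =>
    rw [← Algebra.commutes, mul_assoc, Units.inv_mul, mul_one]
    exact Subalgebra.algebraMap_mem _ c
  | add x y _ _ hx hy => rw [mul_add, add_mul]; exact add_mem hx hy
  | mul x y _ _ hx hy => simpa [mul_assoc] using mul_mem hx hy

/-- **Carayol descent.**  If the traces of `ρ` lie in (the image of) a Henselian local ring `B`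
and the residual representation is full with entries in the residue field of `B`, then `ρ` is
conjugate, by a matrix congruent to `1`, to a representation with entries in `B`. -/
theorem exists_conj_entries_mem [HenselianLocalRing B]
    (ρ : G →* Matrix (Fin 2) (Fin 2) A)
    (htr : ∀ g, (ρ g).trace ∈ Set.range (algebraMap B A))
    (hent : ∀ g i j, IsLocalRing.residue A (ρ g i j) ∈
      ((IsLocalRing.residue A).comp (algebraMap B A)).range)
    (hfull : IsFull (mapRep (IsLocalRing.residue A) ρ)) :
    ∃ P : (Matrix (Fin 2) (Fin 2) A)ˣ,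
      (P : Matrix (Fin 2) (Fin 2) A).map (IsLocalRing.residue A) = 1 ∧
      ∀ g i j, ((↑P⁻¹ : Matrix (Fin 2) (Fin 2) A) * ρ g * (P : Matrix (Fin 2) (Fin 2) A)) i j ∈
        (algebraMap B A).range := by
  obtain ⟨x, hx, hxres⟩ := exists_lift_single (B := B) ρ hent hfull 0 0
  obtain ⟨e, heR, hee, he⟩ := exists_idempotent_lift
    (fun r hr => trace_mem_range_of_mem_adjoin ρ htr hr) hx hxres
  obtain ⟨U, hU, hUe⟩ := exists_adapted_basis hee he
  -- in the adapted basis `ρ` becomes `ρ'`, with the same traces and residual representation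
  let ρ' : G →* Matrix (Fin 2) (Fin 2) A :=
    { toFun := fun g => (↑U⁻¹ : Matrix (Fin 2) (Fin 2) A) * ρ g * (U : Matrix (Fin 2) (Fin 2) A)
      map_one' := by simp
      map_mul' := fun g g' => by simp [mul_assoc] }
  have hρ'res : mapRep (IsLocalRing.residue A) ρ' = mapRep (IsLocalRing.residue A) ρ := by
    refine MonoidHom.ext fun g => ?_
    have hUinv : (IsLocalRing.residue A).mapMatrix (↑U⁻¹ : Matrix (Fin 2) (Fin 2) A) = 1 := by
      have := congrArg (IsLocalRing.residue A).mapMatrix U.inv_mul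
      rwa [map_mul, hU, mul_one, map_one] at this
    show (IsLocalRing.residue A).mapMatrix (_ * _ * _) = (IsLocalRing.residue A).mapMatrix (ρ g)
    rw [map_mul, map_mul, hUinv, hU, one_mul, mul_one]
  have htr' : ∀ g, (ρ' g).trace ∈ Set.range (algebraMap B A) := fun g =>
    (Matrix.trace_units_conj' U (ρ g)).symm ▸ htr g
  have hent' : ∀ g i j, IsLocalRing.residue A (ρ' g i j) ∈
      ((IsLocalRing.residue A).comp (algebraMap B A)).range := fun g i j => by
    have := congrArg (fun M => M i j) (DFunLike.congr_fun hρ'res g)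
    exact (show IsLocalRing.residue A (ρ' g i j) = _ from this) ▸ hent g i j
  have lift := exists_lift_single (B := B) ρ' hent' (hρ'res.symm ▸ hfull)
  obtain ⟨x10, hx10, hres10⟩ := lift 1 0
  obtain ⟨x01, hx01, hres01⟩ := lift 0 1
  obtain ⟨a, hra, ha⟩ := exists_scale_of_single_mem
    (fun r hr => trace_mem_range_of_mem_adjoin ρ' htr' hr)
    (hUe ▸ conj_mem_adjoin (ρ := ρ) (ρ' := ρ') U (fun _ => rfl) heR) hx10 hx01 hres10 hres01
  -- rescale by `diag (1, a)`
  set D : Matrix (Fin 2) (Fin 2) A := Matrix.diagonal ![1, a] with hD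
  have hDres : (IsLocalRing.residue A).mapMatrix D = 1 := by
    ext i j; fin_cases i <;> fin_cases j <;> simp [D, hra]
  obtain ⟨V, hV⟩ := isUnit_of_residue_eq_one hDres
  refine ⟨U * V, ?_, fun g i j => ?_⟩
  · show (IsLocalRing.residue A).mapMatrix _ = 1
    rw [Units.val_mul, map_mul, hU, hV, hDres, one_mul]
  obtain ⟨m00, m01, m11, m10⟩ := ha (ρ' g) (Algebra.subset_adjoin ⟨g, rfl⟩)
  set N := (↑(U * V)⁻¹ : Matrix (Fin 2) (Fin 2) A) * ρ g *
    ((U * V : (Matrix (Fin 2) (Fin 2) A)ˣ) : Matrix (Fin 2) (Fin 2) A) with hN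
  have hND : D * N = ρ' g * D := by
    rw [hN, _root_.mul_inv_rev, Units.val_mul, Units.val_mul, ← hV]
    simp [ρ', mul_assoc]
  have e00 := Matrix.ext_iff.2 hND 0 0
  have e01 := Matrix.ext_iff.2 hND 0 1
  have e10 := Matrix.ext_iff.2 hND 1 0
  have e11 := Matrix.ext_iff.2 hND 1 1
  simp [D, Matrix.diagonal_mul, Matrix.mul_diagonal] at e00 e01 e10 e11
  fin_cases i <;> fin_cases j
  · exact e00 ▸ m00
  · exact e01 ▸ m01
  · exact m10 _ e10.symm
  · have hau : IsUnit a := by_contra fun h => one_ne_zero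
      (hra.symm.trans ((IsLocalRing.residue_eq_zero_iff _).2 h))
    refine Eq.mpr ?_ m11
    show (N 1 1 ∈ (algebraMap B A).range) = (ρ' g 1 1 ∈ (algebraMap B A).range)
    rw [hau.mul_left_cancel (e11.trans (mul_comm _ _))]

/-- Carayol descent, with the descended representation as a homomorphism. -/
theorem exists_descent [HenselianLocalRing B] (hinj : Function.Injective (algebraMap B A))
    (ρ : G →* Matrix (Fin 2) (Fin 2) A)
    (htr : ∀ g, (ρ g).trace ∈ Set.range (algebraMap B A))
    (hent : ∀ g i j, IsLocalRing.residue A (ρ g i j) ∈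
      ((IsLocalRing.residue A).comp (algebraMap B A)).range)
    (hfull : IsFull (mapRep (IsLocalRing.residue A) ρ)) :
    ∃ (P : (Matrix (Fin 2) (Fin 2) A)ˣ) (ρB : G →* Matrix (Fin 2) (Fin 2) B),
      (P : Matrix (Fin 2) (Fin 2) A).map (IsLocalRing.residue A) = 1 ∧
      ∀ g, ρ g * (P : Matrix (Fin 2) (Fin 2) A) =
        (P : Matrix (Fin 2) (Fin 2) A) * (ρB g).map (algebraMap B A) := by
  obtain ⟨P, hP1, hP⟩ := exists_conj_entries_mem ρ htr hent hfull
  choose e he using hP
  have key : ∀ g, ρ g * (P : Matrix (Fin 2) (Fin 2) A) =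
      (P : Matrix (Fin 2) (Fin 2) A) * (Matrix.of (e g)).map (algebraMap B A) := fun g => by
    have : (Matrix.of (e g)).map (algebraMap B A) =
        (↑P⁻¹ : Matrix (Fin 2) (Fin 2) A) * ρ g * (P : Matrix (Fin 2) (Fin 2) A) := by
      ext i j; simp [he]
    rw [this, mul_assoc, Units.mul_inv_cancel_left]
  refine ⟨P, { toFun := fun g => Matrix.of (e g), map_one' := ?_, map_mul' := fun g g' => ?_ },
    hP1, key⟩
  · refine Matrix.map_injective hinj ((Units.mul_right_inj P).1 ?_)
    beta_reduce
    rw [← key, map_one, one_mul, Matrix.map_one _ (map_zero _) (map_one _), mul_one]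
  · refine Matrix.map_injective hinj ((Units.mul_right_inj P).1 ?_)
    beta_reduce
    rw [← key, map_mul, Matrix.map_mul, ← mul_assoc, ← key, mul_assoc, mul_assoc, ← key]

/-- An adically complete local ring is Henselian. -/
theorem henselianLocalRing_of_isAdicComplete (R : Type*) [CommRing R] [IsLocalRing R]
    [IsAdicComplete (IsLocalRing.maximalIdeal R) R] : HenselianLocalRing R :=
  { (inferInstance : IsLocalRing R) with
    is_henselian := fun f hf a₀ h₁ h₂ => HenselianRing.is_henselian f hf a₀ h₁ (h₂.map _) }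

end Fermat.Agent.RepTheory
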