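import Fermat.Agent.RepTheory.GaloisBridge
import Mathlib.Algebra.Module.Lattice
import Mathlib.RingTheory.DedekindDomain.IntegralClosure
import Mathlib.FieldTheory.IntermediateField.Adjoin.Basic
import Mathlib.LinearAlgebra.Matrix.Adjugate

/-!
# An integral model of a two-dimensional representation with integral trace

If `r : G →* M₂(F)` has trace and determinant in a subring `O` (`F` algebraic over the fraction
field of `O`), then a semisimple representation with the same trace and determinant is defined
over the integers of a finite extension; it is controlled by its trace, up to a fixed factor.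
-/

set_option autoImplicit false

open Matrix

namespace Fermat.Agent.RepTheory

variable {G : Type*} [Monoid G]

/-- Clearing denominators in a span over a fraction field. -/
lemma exists_smul_mem_span {R L : Type*} [CommRing R] [IsDomain R] [Field L] [Algebra R L]
    [IsFractionRing R L] {r : G →* Matrix (Fin 2) (Fin 2) R}
    (h : IsFull (mapRep (algebraMap R L) r)) (N : Matrix (Fin 2) (Fin 2) R) :
    ∃ c : R, c ≠ 0 ∧ c • N ∈ Submodule.span R (Set.range r) := by
  have key : ∀ X ∈ Submodule.span L (Set.range (mapRep (algebraMap R L) r)),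
      ∃ c : R, c ≠ 0 ∧ ∃ M ∈ Submodule.span R (Set.range r),
        algebraMap R L c • X = M.map (algebraMap R L) := fun X hX => by
    induction hX using Submodule.span_induction with
    | mem x hx =>
      obtain ⟨g, rfl⟩ := hx
      exact ⟨1, one_ne_zero, r g, Submodule.subset_span ⟨g, rfl⟩, by simp⟩
    | zero => exact ⟨1, one_ne_zero, 0, Submodule.zero_mem _, by simp⟩
    | add x y _ _ hx hy =>
      obtain ⟨c, hc, M, hM, e⟩ := hx
      obtain ⟨c', hc', M', hM', e'⟩ := hy
      refine ⟨c * c', mul_ne_zero hc hc', c' • M + c • M',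
        Submodule.add_mem _ (Submodule.smul_mem _ _ hM) (Submodule.smul_mem _ _ hM'), ?_⟩
      ext i j
      have e1 := Matrix.ext_iff.2 e i j
      have e2 := Matrix.ext_iff.2 e' i j
      simp only [Matrix.smul_apply, Matrix.map_apply, smul_eq_mul] at e1 e2
      simp only [Matrix.smul_apply, Matrix.add_apply, Matrix.map_apply, map_mul, map_add,
        smul_eq_mul, ← e1, ← e2]
      ring
    | smul a x _ hx =>
      obtain ⟨c, hc, M, hM, e⟩ := hx
      obtain ⟨u, v, hv, rfl⟩ := IsFractionRing.div_surjective (A := R) a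
      have hv0 : v ≠ 0 := nonZeroDivisors.ne_zero hv
      refine ⟨v * c, mul_ne_zero hv0 hc, u • M, Submodule.smul_mem _ _ hM, ?_⟩
      ext i j
      have e1 := Matrix.ext_iff.2 e i j
      simp only [Matrix.smul_apply, Matrix.map_apply, smul_eq_mul] at e1
      have hv' : algebraMap R L v ≠ 0 :=
        (map_ne_zero_iff _ (IsFractionRing.injective R L)).2 hv0
      simp only [Matrix.smul_apply, Matrix.map_apply, map_mul, smul_eq_mul, ← e1]
      field_simp
  obtain ⟨c, hc, M, hM, e⟩ := key (N.map (algebraMap R L)) (by rw [h]; trivial)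
  refine ⟨c, hc, ?_⟩
  convert hM using 1
  refine Matrix.map_injective (IsFractionRing.injective R L) ?_
  beta_reduce
  rw [← e]
  ext i j; simp

/-- Over a domain, full span over the fraction field gives uniform control by traces. -/
lemma exists_trace_control {R L : Type*} [CommRing R] [IsDomain R] [Field L] [Algebra R L]
    [IsFractionRing R L] {r : G →* Matrix (Fin 2) (Fin 2) R}
    (h : IsFull (mapRep (algebraMap R L) r)) :
    ∃ c : R, c ≠ 0 ∧ ∀ (σ : G) (I : Ideal R),
      (∀ g, (r (g * σ)).trace - (r g).trace ∈ I) → ∀ i j, c * (r σ - 1) i j ∈ I := by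
  choose c hc hmem using fun p : Fin 2 × Fin 2 => exists_smul_mem_span h (Matrix.single p.2 p.1 1)
  refine ⟨∏ p, c p, Finset.prod_ne_zero_iff.2 fun p _ => hc p, fun σ I hI i j => ?_⟩
  obtain ⟨s, hs⟩ := Finset.dvd_prod_of_mem c (Finset.mem_univ (i, j))
  rw [hs, mul_comm (c (i, j)) s, mul_assoc]
  refine Ideal.mul_mem_left _ _ ?_
  have key : ∀ X ∈ Submodule.span R (Set.range r), (X * (r σ - 1)).trace ∈ I := fun X hX => by
    induction hX using Submodule.span_induction with
    | mem x hx =>
      obtain ⟨g, rfl⟩ := hx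
      rw [mul_sub, mul_one, trace_sub, ← map_mul]; exact hI g
    | zero => simp
    | add x y _ _ hx hy => rw [add_mul, trace_add]; exact I.add_mem hx hy
    | smul a x _ hx => rw [smul_mul_assoc, trace_smul]; exact I.mul_mem_left _ hx
  have := key _ (hmem (i, j))
  rwa [smul_mul_assoc, trace_smul, Matrix.trace_mul_comm, Matrix.trace_mul_single,
    MulOpposite.op_one, one_smul, smul_eq_mul] at this

/-- The endomorphism representation of a matrix representation over `L`. -/
noncomputable def endL {L : Type*} [CommRing L] (r : G →* Matrix (Fin 2) (Fin 2) L) :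
    G →* Module.End L (Fin 2 → L) :=
  (Matrix.toLinAlgEquiv' (R := L) (n := Fin 2)).toAlgHom.toRingHom.toMonoidHom.comp r

/-- From a stable lattice to a representation over the base ring. -/
lemma exists_matrixRep_of_lattice {R L : Type*} [CommRing R] [IsDomain R] [IsPrincipalIdealRing R]
    [Field L] [Algebra R L] [IsFractionRing R L] (rL : G →* Matrix (Fin 2) (Fin 2) L)
    (Λ : Submodule R (Fin 2 → L)) [Submodule.IsLattice L Λ]
    (hstab : ∀ g, ∀ v ∈ Λ, ((Matrix.toLin' (rL g)).restrictScalars R) v ∈ Λ) :
    ∃ r₀ : G →* Matrix (Fin 2) (Fin 2) R,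
      (IsFull rL → IsFull (mapRep (algebraMap R L) r₀)) ∧
      ∀ g, algebraMap R L (r₀ g).trace = (rL g).trace ∧ algebraMap R L (r₀ g).det = (rL g).det := by
  let b : Module.Basis (Fin 2) R Λ :=
    Module.finBasisOfFinrankEq R Λ (by rw [Submodule.IsLattice.finrank_of_pi]; simp)
  let bL : Module.Basis (Fin 2) L (Fin 2 → L) := b.extendOfIsLattice L
  let ρΛ : G →* Module.End R Λ :=
    { toFun := fun g => LinearMap.restrict _ (hstab g)
      map_one' := LinearMap.ext fun v => Subtype.ext (by
        show Matrix.toLin' (rL 1) (v : Fin 2 → L) = (v : Fin 2 → L)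
        rw [map_one, Matrix.toLin'_one]; rfl)
      map_mul' := fun g g' => LinearMap.ext fun v => Subtype.ext (by
        show Matrix.toLin' (rL (g * g')) (v : Fin 2 → L) =
          Matrix.toLin' (rL g) (Matrix.toLin' (rL g') (v : Fin 2 → L))
        rw [map_mul, Matrix.toLin'_mul]; rfl) }
  refine ⟨matRep b ρΛ, ?_⟩
  have hmap : mapRep (algebraMap R L) (matRep b ρΛ) = matRep bL (endL rL) := by
    ext1 g
    ext i j
    have h1 : endL rL g (bL j) = ((ρΛ g (b j) : Λ) : Fin 2 → L) := by
      rw [Module.Basis.extendOfIsLattice_apply]; rfl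
    have h2 : ((ρΛ g (b j) : Λ) : Fin 2 → L) =
        ∑ k, algebraMap R L (b.repr (ρΛ g (b j)) k) • bL k := by
      have h3 := congrArg Λ.subtype (b.sum_repr (ρΛ g (b j))).symm
      rw [map_sum] at h3
      refine h3.trans (Finset.sum_congr rfl fun k _ => ?_)
      rw [map_smul, algebraMap_smul, Module.Basis.extendOfIsLattice_apply]
      rfl
    rw [mapRep_apply, Matrix.map_apply, matRep_apply, matRep_apply, LinearMap.toMatrix_apply,
      LinearMap.toMatrix_apply, h1, h2, bL.repr_sum_self]
  have hL : ∀ g, matRep (Pi.basisFun L (Fin 2)) (endL rL) g = rL g := fun g => by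
    rw [matRep_apply, LinearMap.toMatrix_eq_toMatrix']
    exact LinearMap.toMatrix'_toLin' _
  refine ⟨fun hfull => ?_, fun g => ⟨?_, ?_⟩⟩
  · rw [hmap, isFull_matRep_iff, ← isFull_matRep_iff (Pi.basisFun L (Fin 2))]
    rwa [show matRep (Pi.basisFun L (Fin 2)) (endL rL) = rL from MonoidHom.ext hL]
  · have h := (trace_matRep bL (endL rL) g).trans
      (trace_matRep (Pi.basisFun L (Fin 2)) (endL rL) g).symm
    rw [hL, ← hmap, mapRep_apply] at h
    rw [← h]; simp [Matrix.trace]
  · have h := (det_matRep bL (endL rL) g).trans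
      (det_matRep (Pi.basisFun L (Fin 2)) (endL rL) g).symm
    rw [hL, ← hmap, mapRep_apply] at h
    rw [← h, RingHom.map_det]; rfl

variable (O : Type) [CommRing O] [IsDedekindDomain O] [CharZero O]
variable (F : Type) [Field F] [IsAlgClosed F] [Algebra (FractionRing O) F]
  [Algebra.IsAlgebraic (FractionRing O) F] [Algebra O F] [IsScalarTower O (FractionRing O) F]

/-- A trace-controlled integral model with values in the integers of `L`. -/
def HasIntegralModel (t d : G → O) (L : IntermediateField (FractionRing O) F) : Prop :=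
  ∃ (r₀ : G →* Matrix (Fin 2) (Fin 2) (integralClosure O L)) (c : integralClosure O L),
    c ≠ 0 ∧ (∀ g, (r₀ g).trace = algebraMap O _ (t g)) ∧
    (∀ g, (r₀ g).det = algebraMap O _ (d g)) ∧
    ∀ (σ : G) (I : Ideal (integralClosure O L)),
      (∀ g, algebraMap O (integralClosure O L) (t (g * σ)) -
        algebraMap O (integralClosure O L) (t g) ∈ I) → ∀ i j, c * (r₀ σ - 1) i j ∈ I

variable {O F}

omit [IsAlgClosed F] in
/-- The reducible case. -/
lemma exists_integralModel_of_chars (t d : G → O) (χ₁ χ₂ : G →* F)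
    (ht : ∀ g, algebraMap O F (t g) = χ₁ g + χ₂ g)
    (hd : ∀ g, algebraMap O F (d g) = χ₁ g * χ₂ g) :
    ∃ L : IntermediateField (FractionRing O) F, FiniteDimensional (FractionRing O) L ∧
      HasIntegralModel O F t d L := by
  have : CharZero F := by
    have : CharZero (FractionRing O) :=
      charZero_of_injective_algebraMap (IsFractionRing.injective O _)
    exact charZero_of_injective_algebraMap (algebraMap (FractionRing O) F).injective
  have hint : ∀ g, IsIntegral O (χ₁ g) ∧ IsIntegral O (χ₂ g) := fun g => by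
    constructor <;>
      refine ⟨Polynomial.X ^ 2 - Polynomial.C (t g) * Polynomial.X + Polynomial.C (d g),
        by monicity!, ?_⟩ <;>
      simp [ht, hd] <;> ring
  obtain ⟨L, hL, hmem, c, hc, hcI⟩ : ∃ L : IntermediateField (FractionRing O) F,
      FiniteDimensional (FractionRing O) L ∧ (∀ g, χ₁ g ∈ L ∧ χ₂ g ∈ L) ∧
      ∃ c : F, c ≠ 0 ∧ ((c = 2 ∧ χ₁ = χ₂) ∨ ∃ h, c = χ₁ h - χ₂ h) := by
    have halg : ∀ g, algebraMap O F (t g) ∈ (⊥ : IntermediateField (FractionRing O) F) := fun g =>
      ⟨algebraMap O (FractionRing O) (t g), (IsScalarTower.algebraMap_apply _ _ _ _).symm⟩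
    by_cases he : χ₁ = χ₂
    · refine ⟨⊥, inferInstance, fun g => ?_, 2, two_ne_zero, Or.inl ⟨rfl, he⟩⟩
      have : χ₁ g ∈ (⊥ : IntermediateField (FractionRing O) F) := by
        have : χ₁ g = algebraMap O F (t g) / 2 := by rw [ht, ← he]; ring
        rw [this]; exact div_mem (halg g) (by simp)
      exact ⟨this, he ▸ this⟩
    · obtain ⟨h, hh⟩ := DFunLike.ne_iff.1 he
      set L := IntermediateField.adjoin (FractionRing O) ({χ₁ h, χ₂ h} : Set F)
      have : FiniteDimensional (FractionRing O) L :=
        IntermediateField.finiteDimensional_adjoin fun x _ => Algebra.IsIntegral.isIntegral x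
      have h1 : χ₁ h ∈ L := IntermediateField.subset_adjoin _ _ (by simp)
      have h2 : χ₂ h ∈ L := IntermediateField.subset_adjoin _ _ (by simp)
      refine ⟨L, this, fun g => ?_, _, sub_ne_zero.2 hh, Or.inr ⟨h, rfl⟩⟩
      have hne : χ₁ h - χ₂ h ≠ 0 := sub_ne_zero.2 hh
      have e : χ₁ g = (algebraMap O F (t (g * h)) - χ₂ h * algebraMap O F (t g)) /
          (χ₁ h - χ₂ h) := by
        rw [eq_div_iff hne, ht, ht, map_mul, map_mul]; ring
      have m : χ₁ g ∈ L := by
        rw [e]
        exact div_mem (sub_mem (bot_le (a := L) (halg _)) (mul_mem h2 (bot_le (a := L) (halg _))))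
          (sub_mem h1 h2)
      have : χ₂ g = algebraMap O F (t g) - χ₁ g := by rw [ht]; ring
      exact ⟨m, this ▸ sub_mem (bot_le (a := L) (halg _)) m⟩
  refine ⟨L, hL, ?_⟩
  let val : integralClosure O L →ₐ[O] F :=
    (L.val.restrictScalars O).comp (integralClosure O L).val
  have hval : Function.Injective val := fun a b h => Subtype.ext (Subtype.ext h)
  have hliftint : ∀ (x : F) (hx : x ∈ L), IsIntegral O x → IsIntegral O (⟨x, hx⟩ : L) :=
    fun x hx h => (isIntegral_algHom_iff (L.val.restrictScalars O) Subtype.val_injective).1 h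
  let e₁ : G → integralClosure O L := fun g =>
    ⟨⟨χ₁ g, (hmem g).1⟩, hliftint _ (hmem g).1 (hint g).1⟩
  let e₂ : G → integralClosure O L := fun g =>
    ⟨⟨χ₂ g, (hmem g).2⟩, hliftint _ (hmem g).2 (hint g).2⟩
  have hv₁ : ∀ g, val (e₁ g) = χ₁ g := fun _ => rfl
  have hv₂ : ∀ g, val (e₂ g) = χ₂ g := fun _ => rfl
  let r₀ : G →* Matrix (Fin 2) (Fin 2) (integralClosure O L) :=
    { toFun := fun g => Matrix.diagonal ![e₁ g, e₂ g]
      map_one' := by
        ext i j; fin_cases i <;> fin_cases j <;> simp [e₁, e₂]
      map_mul' := fun g g' => by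
        rw [Matrix.diagonal_mul_diagonal]
        congr 1; ext i; fin_cases i <;> simp [e₁, e₂] }
  have hvt : ∀ g, val (algebraMap O _ (t g)) = χ₁ g + χ₂ g := fun g => by
    rw [AlgHom.commutes, ht]
  obtain ⟨c₀, hc₀⟩ : ∃ c₀ : integralClosure O L, val c₀ = c := by
    rcases hcI with ⟨h2, -⟩ | ⟨h, hh⟩
    · exact ⟨2, by rw [h2, map_ofNat]⟩
    · exact ⟨e₁ h - e₂ h, by rw [hh, map_sub, hv₁, hv₂]⟩
  refine ⟨r₀, c₀, fun h => hc (by rw [← hc₀, h, map_zero]), fun g => hval ?_, fun g => hval ?_,
    fun σ I hI i j => ?_⟩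
  · show val (Matrix.diagonal ![e₁ g, e₂ g]).trace = _
    rw [hvt]; simp [hv₁, hv₂]
  · show val (Matrix.diagonal ![e₁ g, e₂ g]).det = _
    rw [AlgHom.commutes, hd]; simp [hv₁, hv₂]
  · have key : ∀ (g : G), (e₁ g * (e₁ σ - 1) + e₂ g * (e₂ σ - 1)) ∈ I := fun g => by
      convert hI g using 1
      apply hval
      simp only [map_add, map_sub, map_mul, map_one, hvt, hv₁, hv₂]
      ring
    have hcv : c₀ * (e₁ σ - 1) ∈ I ∧ c₀ * (e₂ σ - 1) ∈ I := by
      have k1 := key 1
      rcases hcI with ⟨h2, he⟩ | ⟨h, hh⟩
      · constructor <;> convert k1 using 1 <;> apply hval <;>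
          simp [hc₀, h2, hv₁, hv₂, he] <;> ring
      · have k2 := key h
        constructor
        · convert sub_mem k2 (I.mul_mem_left (e₂ h) k1) using 1
          apply hval; simp [hc₀, hh, hv₁, hv₂]; ring
        · convert sub_mem (I.mul_mem_left (e₁ h) k1) k2 using 1
          apply hval; simp [hc₀, hh, hv₁, hv₂]; ring
    show c₀ * (Matrix.diagonal ![e₁ σ, e₂ σ] - 1) i j ∈ I
    fin_cases i <;> fin_cases j <;> simp [hcv.1, hcv.2]

omit [IsAlgClosed F] [CharZero O] [Algebra.IsAlgebraic (FractionRing O) F] in
/-- Finitely many values of a full representation span all values with coefficients in `O`, up to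
one denominator: invert the trace pairing. -/
lemma exists_trace_pairing_repr (t : G → O) (r : G →* Matrix (Fin 2) (Fin 2) F)
    (ht : ∀ g, algebraMap O F (t g) = (r g).trace) (hfull : IsFull r) :
    ∃ (s : Type) (_ : Fintype s) (gs : s → G) (δ : O) (a : G → s → O),
      algebraMap O F δ ≠ 0 ∧
        ∀ g, algebraMap O F δ • r g = ∑ i, algebraMap O F (a g i) • r (gs i) := by
  classical
  obtain ⟨s, hs, hspan, hli⟩ := exists_linearIndependent F (Set.range r)
  rw [show Submodule.span F (Set.range r) = ⊤ from hfull] at hspan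
  have : Fintype s := hli.setFinite.fintype
  choose gs hgs using fun i : s => hs i.2
  set bs : Module.Basis s F (Matrix (Fin 2) (Fin 2) F) :=
    Module.Basis.mk hli (by rw [Subtype.range_coe, hspan]) with hbs
  have hbsi : ∀ i, bs i = r (gs i) := fun i => by
    rw [hbs, Module.Basis.coe_mk]; exact (hgs i).symm
  -- trace pairing
  have hext : ∀ X : Matrix (Fin 2) (Fin 2) F, (∀ j, (X * r (gs j)).trace = 0) → X = 0 :=
    fun X hX => by
    refine eq_zero_of_forall_trace_mul X fun N => ?_
    have : N ∈ Submodule.span F (Set.range bs) := by rw [bs.span_eq]; trivial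
    induction this using Submodule.span_induction with
    | mem x hx => obtain ⟨j, rfl⟩ := hx; rw [hbsi]; exact hX j
    | zero => simp
    | add x y _ _ hx hy => rw [mul_add, trace_add, hx, hy, add_zero]
    | smul a x _ hx => rw [mul_smul_comm, trace_smul, hx, smul_zero]
  let Γ : Matrix s s O := Matrix.of fun i j => t (gs i * gs j)
  have hinjOF : Function.Injective (algebraMap O F) := by
    rw [IsScalarTower.algebraMap_eq O (FractionRing O) F]
    exact (algebraMap (FractionRing O) F).injective.comp (IsFractionRing.injective O _)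
  have hδ : algebraMap O F Γ.det ≠ 0 := by
    rw [RingHom.map_det]
    intro h0
    obtain ⟨v, hv0, hv⟩ := Matrix.exists_vecMul_eq_zero_iff.2 h0
    apply hv0
    have hX : ∑ i, v i • bs i = 0 := hext _ fun j => by
      have := congrFun hv j
      simp only [Matrix.vecMul, dotProduct, RingHom.mapMatrix_apply, Matrix.map_apply,
        Pi.zero_apply] at this
      rw [Finset.sum_mul, trace_sum, ← this]
      refine Finset.sum_congr rfl fun i _ => ?_
      rw [smul_mul_assoc, trace_smul, hbsi, ← map_mul, ← ht, smul_eq_mul]; rfl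
    funext i
    exact Fintype.linearIndependent_iff.1 bs.linearIndependent v hX i
  let a : G → s → O := fun g => (fun j => t (g * gs j)) ᵥ* Γ.adjugate
  have hrep : ∀ g, algebraMap O F Γ.det • r g = ∑ i, algebraMap O F (a g i) • r (gs i) := by
    intro g
    rw [← sub_eq_zero]
    refine hext _ fun j => ?_
    have e : a g ᵥ* Γ = Γ.det • fun j => t (g * gs j) := by
      simp only [a, Matrix.vecMul_vecMul, Matrix.adjugate_mul]
      rw [Matrix.vecMul_smul, Matrix.vecMul_one]
    rw [sub_mul, trace_sub, smul_mul_assoc, trace_smul, ← map_mul, ← ht, Finset.sum_mul,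
      trace_sum, sub_eq_zero, smul_eq_mul, ← map_mul]
    have ej := congrFun e j
    simp only [Pi.smul_apply, smul_eq_mul, Matrix.vecMul, dotProduct] at ej
    rw [← ej, map_sum]
    refine Finset.sum_congr rfl fun i _ => ?_
    rw [smul_mul_assoc, trace_smul, ← map_mul, ← ht, smul_eq_mul, ← map_mul]; rfl
  exact ⟨s, inferInstance, gs, Γ.det, a, hδ, hrep⟩

omit [IsAlgClosed F] in
/-- Such a representation takes its values in a finite extension of the fraction field. -/
lemma exists_field_of_definition {s : Type} [Fintype s]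
    (r : G →* Matrix (Fin 2) (Fin 2) F) (gs : s → G) {δ : O} {a : G → s → O}
    (hδ : algebraMap O F δ ≠ 0)
    (hrep : ∀ g, algebraMap O F δ • r g = ∑ i, algebraMap O F (a g i) • r (gs i)) :
    ∃ L : IntermediateField (FractionRing O) F, FiniteDimensional (FractionRing O) L ∧
      ∃ rL : G →* Matrix (Fin 2) (Fin 2) L, mapRep (algebraMap L F) rL = r := by
  set S := ⋃ (i : s), ⋃ (a : Fin 2), ⋃ (b : Fin 2), ({r (gs i) a b} : Set F)
  set L := IntermediateField.adjoin (FractionRing O) S with hLdef
  have hSfin : S.Finite := Set.finite_iUnion fun i => Set.finite_iUnion fun a =>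
    Set.finite_iUnion fun b => Set.finite_singleton _
  have : Finite S := hSfin.to_subtype
  have hLfin : FiniteDimensional (FractionRing O) L :=
    IntermediateField.finiteDimensional_adjoin fun x _ => Algebra.IsIntegral.isIntegral x
  have halg : ∀ x : O, algebraMap O F x ∈ L := fun x => by
    rw [IsScalarTower.algebraMap_apply O (FractionRing O) F]; exact L.algebraMap_mem _
  have hent : ∀ g a b, r g a b ∈ L := fun g p q => by
    have h := Matrix.ext_iff.2 (hrep g) p q
    simp only [Matrix.smul_apply, Matrix.sum_apply, smul_eq_mul] at h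
    have : r g p q = (∑ i, algebraMap O F (a g i) * r (gs i) p q) / algebraMap O F δ := by
      rw [← h, mul_div_cancel_left₀ _ hδ]
    rw [this]
    refine div_mem (sum_mem fun i _ => mul_mem (halg _) ?_) (halg _)
    exact IntermediateField.subset_adjoin _ _
      (Set.mem_iUnion.2 ⟨i, Set.mem_iUnion.2 ⟨p, Set.mem_iUnion.2 ⟨q, rfl⟩⟩⟩)
  let rL : G →* Matrix (Fin 2) (Fin 2) L :=
    { toFun := fun g => Matrix.of fun a b => ⟨r g a b, hent g a b⟩
      map_one' := by ext a b; simp [Matrix.one_apply]; split_ifs <;> rfl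
      map_mul' := fun g g' => by
        ext a b; simp [Matrix.mul_apply] }
  exact ⟨L, hLfin, rL, by ext g a b; rfl⟩

omit [IsAlgClosed F] [CharZero O] [Algebra.IsAlgebraic (FractionRing O) F] in
/-- The orbit of the first basis vector spans a lattice over the integers of `L`. -/
lemma isLattice_span_orbit {L : IntermediateField (FractionRing O) F}
    [IsNoetherianRing (integralClosure O L)] {s : Type}
    [Fintype s] {r : G →* Matrix (Fin 2) (Fin 2) F} {rL : G →* Matrix (Fin 2) (Fin 2) L}
    (hrL : mapRep (algebraMap L F) rL = r) (hfullL : IsFull rL) (gs : s → G) {δ : O}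
    {a : G → s → O} (hδ : algebraMap O F δ ≠ 0)
    (hrep : ∀ g, algebraMap O F δ • r g = ∑ i, algebraMap O F (a g i) • r (gs i)) :
    Submodule.IsLattice L (Submodule.span (integralClosure O L)
      (Set.range fun g => rL g *ᵥ (Pi.single 0 1 : Fin 2 → L))) := by
  set R := integralClosure O L
  let e₀ : Fin 2 → L := Pi.single 0 1
  let Λ : Submodule R (Fin 2 → L) := Submodule.span R (Set.range fun g => rL g *ᵥ e₀)
  have halg : ∀ x : O, algebraMap O F x ∈ L := fun x => by
    rw [IsScalarTower.algebraMap_apply O (FractionRing O) F]; exact L.algebraMap_mem _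
  let δL : L := ⟨algebraMap O F δ, halg _⟩
  subst hrL
  show Submodule.IsLattice L Λ
  have hfg : Λ.FG := by
    refine Submodule.FG.of_le (T := Submodule.span R
      (Set.range fun i => δL⁻¹ • (rL (gs i) *ᵥ e₀))) (Submodule.fg_span (Set.finite_range _)) ?_
    rw [Submodule.span_le]
    rintro _ ⟨g, rfl⟩
    have : rL g *ᵥ e₀ = ∑ i, algebraMap O R (a g i) • δL⁻¹ • (rL (gs i) *ᵥ e₀) := by
      funext p
      apply Subtype.ext
      have h := Matrix.ext_iff.2 (hrep g) p 0
      simp only [Matrix.smul_apply, Matrix.sum_apply, smul_eq_mul, mapRep_apply, Matrix.map_apply,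
        IntermediateField.algebraMap_apply] at h
      simp only [e₀, Matrix.mulVec_single_one, Finset.sum_apply, Pi.smul_apply, Matrix.col_apply]
      rw [show ∀ (f : s → L), ((∑ i, f i : L) : F) = ∑ i, (f i : F) from fun f => map_sum L.val f _]
      show (rL g p 0 : F) =
        ∑ i, algebraMap O F (a g i) * ((algebraMap O F δ)⁻¹ * (rL (gs i) p 0 : F))
      rw [eq_comm, ← mul_right_inj' hδ, h, Finset.mul_sum]
      exact Finset.sum_congr rfl fun i _ => by field_simp
    rw [SetLike.mem_coe]; beta_reduce; rw [this]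
    exact Submodule.sum_mem _ fun i _ => Submodule.smul_mem _ _ (Submodule.subset_span ⟨i, rfl⟩)
  refine ⟨hfg, eq_top_iff.2 fun v _ => ?_⟩
  have hall : ∀ N ∈ Submodule.span L (Set.range rL),
      N *ᵥ e₀ ∈ Submodule.span L (Λ : Set (Fin 2 → L)) := fun N hN => by
    induction hN using Submodule.span_induction with
    | mem x hx =>
      obtain ⟨g, rfl⟩ := hx
      exact Submodule.subset_span (Submodule.subset_span ⟨g, rfl⟩)
    | zero => rw [Matrix.zero_mulVec]; exact Submodule.zero_mem _
    | add x y _ _ hx hy => rw [Matrix.add_mulVec]; exact Submodule.add_mem _ hx hy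
    | smul c x _ hx => rw [Matrix.smul_mulVec c x e₀]; exact Submodule.smul_mem _ c hx
  have h1 := hall (Matrix.vecMulVec v e₀) (by rw [hfullL]; trivial)
  have h2 : Matrix.vecMulVec v e₀ *ᵥ e₀ = v := by
    funext k
    rw [Matrix.mulVec, dotProduct, Fin.sum_univ_two]
    simp only [Matrix.vecMulVec_apply, e₀, Pi.single_eq_same,
      Pi.single_eq_of_ne (show (1 : Fin 2) ≠ 0 by decide), mul_one, mul_zero, add_zero]
  rwa [h2] at h1

omit [IsAlgClosed F] [CharZero O] [Algebra.IsAlgebraic (FractionRing O) F] in
/-- That lattice is stable. -/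
lemma span_orbit_stable {L : IntermediateField (FractionRing O) F}
    (rL : G →* Matrix (Fin 2) (Fin 2) L) (e₀ : Fin 2 → L) (g : G)
    {v : Fin 2 → L}
    (hv : v ∈ Submodule.span (integralClosure O L) (Set.range fun g => rL g *ᵥ e₀)) :
    ((Matrix.toLin' (rL g)).restrictScalars (integralClosure O L)) v ∈
      Submodule.span (integralClosure O L) (Set.range fun g => rL g *ᵥ e₀) := by
  set Λ := Submodule.span (integralClosure O L) (Set.range fun g => rL g *ᵥ e₀)
  induction hv using Submodule.span_induction with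
  | mem x hx =>
    obtain ⟨h, rfl⟩ := hx
    exact Submodule.subset_span ⟨g * h, by
      show rL (g * h) *ᵥ e₀ = rL g *ᵥ (rL h *ᵥ e₀)
      rw [map_mul, Matrix.mulVec_mulVec]⟩
  | zero => simp
  | add x y _ _ hx hy => rw [map_add]; exact Λ.add_mem hx hy
  | smul c x _ hx => rw [map_smul]; exact Λ.smul_mem c hx

omit [IsAlgClosed F] in
/-- The absolutely irreducible case. -/
lemma exists_integralModel_of_full (t d : G → O) (r : G →* Matrix (Fin 2) (Fin 2) F)
    (ht : ∀ g, algebraMap O F (t g) = (r g).trace)
    (hd : ∀ g, algebraMap O F (d g) = (r g).det) (hfull : IsFull r)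
    (hpid : ∀ L : IntermediateField (FractionRing O) F, FiniteDimensional (FractionRing O) L →
      IsPrincipalIdealRing (integralClosure O L)) :
    ∃ L : IntermediateField (FractionRing O) F, FiniteDimensional (FractionRing O) L ∧
      HasIntegralModel O F t d L := by
  obtain ⟨s, _, gs, δ, a, hδ, hrep⟩ := exists_trace_pairing_repr t r ht hfull
  obtain ⟨L, hLfin, rL, hrL⟩ := exists_field_of_definition r gs hδ hrep
  refine ⟨L, hLfin, ?_⟩
  have hfullL : IsFull rL := IsFull.of_map (algebraMap L F) (hrL ▸ hfull)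
  have hCZ : CharZero (FractionRing O) :=
    charZero_of_injective_algebraMap (IsFractionRing.injective O _)
  set R := integralClosure O L
  have : IsFractionRing R L :=
    integralClosure.isFractionRing_of_finite_extension (FractionRing O) L
  have : IsDedekindDomain R := integralClosure.isDedekindDomain O (FractionRing O) L
  let Λ : Submodule R (Fin 2 → L) :=
    Submodule.span R (Set.range fun g => rL g *ᵥ (Pi.single 0 1 : Fin 2 → L))
  have hlat : Submodule.IsLattice L Λ := isLattice_span_orbit hrL hfullL gs hδ hrep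
  have hstab : ∀ g, ∀ v ∈ Λ, ((Matrix.toLin' (rL g)).restrictScalars R) v ∈ Λ := fun g _ hv =>
    span_orbit_stable rL _ g hv
  have : IsPrincipalIdealRing R := hpid L hLfin
  obtain ⟨r₀, hf₀, hval⟩ := exists_matrixRep_of_lattice (R := R) rL Λ hstab
  have hinj : Function.Injective ((algebraMap L F).comp (algebraMap R L)) :=
    (algebraMap L F).injective.comp (IsFractionRing.injective R L)
  have halgR : ∀ x : O, algebraMap L F (algebraMap R L (algebraMap O R x)) = algebraMap O F x :=
    fun _ => rfl
  have htr : ∀ g, (r₀ g).trace = algebraMap O R (t g) := fun g => by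
    apply hinj
    rw [RingHom.comp_apply, RingHom.comp_apply, (hval g).1, halgR, ht, ← hrL, mapRep_apply]
    simp [Matrix.trace]
  obtain ⟨c, hc, hcI⟩ := exists_trace_control (hf₀ hfullL)
  refine ⟨r₀, c, hc, htr, fun g => ?_, fun σ I hI => hcI σ I fun g => by rw [htr, htr]; exact hI g⟩
  apply hinj
  rw [RingHom.comp_apply, RingHom.comp_apply, (hval g).2, halgR, hd, ← hrL, mapRep_apply,
    RingHom.map_det]
  rfl

/-- **Integral models.**  A semisimple representation with the given integral trace and
determinant is defined over the integers of a finite extension and is controlled by its trace. -/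
theorem exists_integralModel (t d : G → O) (r : G →* Matrix (Fin 2) (Fin 2) F)
    (ht : ∀ g, algebraMap O F (t g) = (r g).trace)
    (hd : ∀ g, algebraMap O F (d g) = (r g).det)
    (hpid : ∀ L : IntermediateField (FractionRing O) F, FiniteDimensional (FractionRing O) L →
      IsPrincipalIdealRing (integralClosure O L)) :
    ∃ L : IntermediateField (FractionRing O) F, FiniteDimensional (FractionRing O) L ∧
      HasIntegralModel O F t d L := by
  by_cases hfull : IsFull r
  · exact exists_integralModel_of_full t d r ht hd hfull hpid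
  -- a common eigenvector
  obtain ⟨W, hW, hWb, hWt⟩ : ∃ W : Submodule F (Fin 2 → F), (∀ g, ∀ x ∈ W, r g *ᵥ x ∈ W) ∧
      W ≠ ⊥ ∧ W ≠ ⊤ := by
    by_contra hne
    push Not at hne
    exact hfull (isFull_of_isAlgClosed r fun W hW => or_iff_not_imp_left.2 fun h => hne W hW h)
  obtain ⟨v, hv, hv0⟩ := W.ne_bot_iff.1 hWb
  have hW1 : ∀ x ∈ W, ∃ a : F, a • v = x := fun x hx => by
    refine Submodule.mem_span_singleton.1 ?_
    have hle : Submodule.span F {v} ≤ W := (Submodule.span_singleton_le_iff_mem _ _).2 hv
    have hd2 : Module.finrank F W < 2 := by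
      have := Submodule.finrank_lt hWt
      rwa [Module.finrank_fin_fun] at this
    rwa [Submodule.eq_of_le_of_finrank_le hle (by rw [finrank_span_singleton hv0]; omega)]
  choose χ hχ using fun g => hW1 _ (hW g v hv)
  let χ₁ : G →* F :=
    { toFun := χ
      map_one' := by
        refine smul_left_injective F hv0 ?_
        simp only
        rw [hχ, map_one, Matrix.one_mulVec, one_smul]
      map_mul' := fun g g' => by
        refine smul_left_injective F hv0 ?_
        simp only
        rw [hχ, map_mul, ← Matrix.mulVec_mulVec, ← hχ g', Matrix.mulVec_smul, ← hχ g, smul_smul,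
          mul_comm (χ g')] }
  -- the quotient character, as a triangular entry
  obtain ⟨i, hi⟩ := Function.ne_iff.1 hv0
  obtain ⟨P, hP⟩ : ∃ P : (Matrix (Fin 2) (Fin 2) F)ˣ,
      (fun k => (P : Matrix (Fin 2) (Fin 2) F) k 0) = v := by
    let M : Matrix (Fin 2) (Fin 2) F := Matrix.of fun k l => if l = 0 then v k else
      if k = i then 0 else 1
    have : IsUnit M := by
      rw [Matrix.isUnit_iff_isUnit_det, isUnit_iff_ne_zero, Matrix.det_fin_two]
      fin_cases i <;> simpa [M] using hi
    exact ⟨this.unit, by funext k; simp [M]⟩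
  let m : G →* Matrix (Fin 2) (Fin 2) F :=
    { toFun := fun g => (↑P⁻¹ : Matrix (Fin 2) (Fin 2) F) * r g * (P : Matrix (Fin 2) (Fin 2) F)
      map_one' := by simp
      map_mul' := fun g g' => by simp [mul_assoc] }
  have hcol : ∀ g, (fun k => m g k 0) = Pi.single 0 (χ g) := fun g => by
    have hPe : (P : Matrix (Fin 2) (Fin 2) F) *ᵥ Pi.single 0 1 = v := by
      rw [← hP]; funext k; simp
    have : m g *ᵥ Pi.single 0 1 = χ g • Pi.single 0 1 := by
      show (_ * r g * _) *ᵥ _ = _
      rw [← Matrix.mulVec_mulVec, hPe, ← Matrix.mulVec_mulVec, ← hχ, Matrix.mulVec_smul, ← hPe,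
        Matrix.mulVec_mulVec, Units.inv_mul, Matrix.one_mulVec]
    funext k
    have := congrFun this k
    simpa [Pi.single_apply] using this
  have h00 : ∀ g, m g 0 0 = χ g := fun g => by simpa using congrFun (hcol g) 0
  have h10 : ∀ g, m g 1 0 = 0 := fun g => by simpa using congrFun (hcol g) 1
  let χ₂ : G →* F :=
    { toFun := fun g => m g 1 1
      map_one' := by simp
      map_mul' := fun g g' => by simp [Matrix.mul_apply, Fin.sum_univ_two, h10] }
  refine exists_integralModel_of_chars t d χ₁ χ₂ (fun g => ?_) (fun g => ?_)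
  · rw [ht, ← Matrix.trace_units_conj' P (r g)]
    show (m g).trace = χ g + m g 1 1
    rw [Matrix.trace_fin_two, h00]
  · rw [hd, ← Matrix.det_units_conj' P (r g)]
    show (m g).det = χ g * m g 1 1
    rw [Matrix.det_fin_two, h00, h10]; ring

end Fermat.Agent.RepTheory
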