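import Fermat.Agent.RepTheory.GaloisBridge
import Mathlib.LinearAlgebra.Charpoly.ToMatrix
import Mathlib.LinearAlgebra.Matrix.Charpoly.Coeff

/-!
# `GaloisRepAdic` from a continuous matrix representation

`adicOfMatrix` turns a continuous matrix representation into a `GaloisRepAdic`, with the expected
characteristic polynomials.
-/

set_option autoImplicit false

open Matrix

namespace Fermat.Agent.RepTheory

variable {A : Type} [CommRing A]

/-- The endomorphism representation of a matrix representation. -/
noncomputable def endOfMatrix {G : Type*} [Monoid G] (r : G →* Matrix (Fin 2) (Fin 2) A) :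
    G →* Module.End A (Fin 2 → A) :=
  (Matrix.toLinAlgEquiv' (R := A) (n := Fin 2)).toAlgHom.toRingHom.toMonoidHom.comp r

lemma endOfMatrix_apply {G : Type*} [Monoid G] (r : G →* Matrix (Fin 2) (Fin 2) A) (g : G)
    (v : Fin 2 → A) : endOfMatrix r g v = r g *ᵥ v := rfl

variable [IsLocalRing A]

/-- Entrywise continuity of a matrix representation. -/
def MatrixContinuous (r : Gal →* Matrix (Fin 2) (Fin 2) A) : Prop :=
  ∀ n : ℕ, ∃ L : IntermediateField ℚ (AlgebraicClosure ℚ), FiniteDimensional ℚ L ∧
    ∀ σ : Gal, (∀ x ∈ L, σ x = x) → ∀ i j, (r σ - 1) i j ∈ IsLocalRing.maximalIdeal A ^ n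

/-- The adic representation attached to a continuous matrix representation. -/
noncomputable def adicOfMatrix (r : Gal →* Matrix (Fin 2) (Fin 2) A) (hr : MatrixContinuous r) :
    GaloisRepAdic A where
  V := Fin 2 → A
  finrank_eq := Module.finrank_fin_fun A
  ρ := endOfMatrix r
  isAdicContinuous := fun n => by
    obtain ⟨L, hL, h⟩ := hr n
    refine ⟨L, hL, fun σ hσ v => ?_⟩
    have e : endOfMatrix r σ v - v = (r σ - 1) *ᵥ v := by
      rw [endOfMatrix_apply, Matrix.sub_mulVec, Matrix.one_mulVec]
    rw [e, pi_eq_sum_univ ((r σ - 1) *ᵥ v)]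
    refine Submodule.sum_mem _ fun i _ => Submodule.smul_mem_smul ?_ Submodule.mem_top
    show ∑ j, (r σ - 1) i j * v j ∈ _
    exact Submodule.sum_mem _ fun j _ => Ideal.mul_mem_right _ _ (h σ hσ i j)

variable (r : Gal →* Matrix (Fin 2) (Fin 2) A) (hr : MatrixContinuous r)

/-- The characteristic polynomials of `adicOfMatrix`. -/
lemma charpoly_adicOfMatrix (σ : Gal) :
    LinearMap.charpoly ((adicOfMatrix r hr).ρ σ) =
      Polynomial.X ^ 2 - Polynomial.C (r σ).trace * Polynomial.X + Polynomial.C (r σ).det := by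
  show LinearMap.charpoly (Matrix.toLin' (r σ)) = _
  rw [← LinearMap.charpoly_toMatrix (Matrix.toLin' (r σ)) (Pi.basisFun A (Fin 2)),
    LinearMap.toMatrix_eq_toMatrix', LinearMap.toMatrix'_toLin', Matrix.charpoly_fin_two]

/-- `adicOfMatrix` is trivial where the matrices are. -/
lemma adicOfMatrix_eq_one {σ : Gal} (h : r σ = 1) : (adicOfMatrix r hr).ρ σ = 1 := by
  show endOfMatrix r σ = 1
  simp [endOfMatrix, h]

end Fermat.Agent.RepTheory
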