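import Fermat.Agent.RepTheory.IntegralModel
import Fermat.Agent.RepTheory.DVRExtension
import Fermat.Agent.RepTheory.OfMatrix

/-!
# Adic Galois representations from continuous traces

A function `t` on the Galois group with values in a complete DVR `O` of characteristic zero which is
continuous and is the trace of some two-dimensional representation over an algebraic closure is
the trace of a `GaloisRepAdic` over a finite extension of `O`.
-/

set_option autoImplicit false

open Polynomial

namespace Fermat.Agent.RepTheory

open IsLocalRing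

variable {O : Type} [CommRing O] [IsDomain O] [IsDiscreteValuationRing O]
  [IsAdicComplete (maximalIdeal O) O] [CharZero O]

/-- Continuity of a trace function: on a finite level it is invariant modulo any power of the
maximal ideal. -/
def TraceContinuous (t : Gal → O) : Prop :=
  ∀ n : ℕ, ∃ L : IntermediateField ℚ (AlgebraicClosure ℚ), FiniteDimensional ℚ L ∧
    ∀ σ : Gal, (∀ x ∈ L, σ x = x) → ∀ g, t (g * σ) - t g ∈ maximalIdeal O ^ n

omit [CharZero O] [IsAdicComplete (maximalIdeal O) O] in
/-- Division by a fixed nonzero element costs a fixed power of the maximal ideal. -/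
lemma exists_pow_div {c : O} (hc : c ≠ 0) : ∃ e : ℕ, ∀ (n : ℕ) (x : O),
    c * x ∈ maximalIdeal O ^ (n + e) → x ∈ maximalIdeal O ^ n := by
  obtain ⟨π, hπ⟩ := IsDiscreteValuationRing.exists_irreducible O
  obtain ⟨e, u, rfl⟩ := IsDiscreteValuationRing.eq_unit_mul_pow_irreducible hc hπ
  refine ⟨e, fun n x hx => ?_⟩
  rw [hπ.maximalIdeal_eq, Ideal.span_singleton_pow, Ideal.mem_span_singleton] at hx ⊢
  rw [mul_assoc, u.isUnit.dvd_mul_left, pow_add, mul_comm (π ^ n)] at hx
  exact (mul_dvd_mul_iff_left (pow_ne_zero _ hπ.ne_zero)).1 hx

/-- **Realisation.**  A continuous trace function on the Galois group coming from a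
two-dimensional representation over an algebraic closure of the fraction field is the trace of an
adic representation over a finite extension of `O`; elements leaving all traces invariant act
trivially. -/
theorem exists_adic_of_trace [Finite (ResidueField O)] (F : Type) [Field F] [IsAlgClosed F]
    [Algebra (FractionRing O) F] [Algebra.IsAlgebraic (FractionRing O) F] [Algebra O F]
    [IsScalarTower O (FractionRing O) F] (t d : Gal → O) (r : Gal →* Matrix (Fin 2) (Fin 2) F)
    (ht : ∀ g, algebraMap O F (t g) = (r g).trace)
    (hd : ∀ g, algebraMap O F (d g) = (r g).det) (hcont : TraceContinuous t) :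
    ∃ (O₂ : Type) (_ : CommRing O₂) (_ : IsDomain O₂) (_ : IsDiscreteValuationRing O₂)
      (_ : IsAdicComplete (maximalIdeal O₂) O₂) (_ : Finite (ResidueField O₂)) (_ : CharZero O₂)
      (_ : Algebra O O₂) (_ : Module.Finite O O₂) (_ : IsLocalHom (algebraMap O O₂)),
      Function.Injective (algebraMap O O₂) ∧ ∃ ρ : GaloisRepAdic O₂,
        (∀ g, LinearMap.charpoly (ρ.ρ g) =
          X ^ 2 - C (algebraMap O O₂ (t g)) * X + C (algebraMap O O₂ (d g))) ∧
        ∀ σ, (∀ g, t (g * σ) = t g) → ρ.ρ σ = 1 := by
  obtain ⟨L, hL, r₀, c, hc, htr, hdet, hI⟩ := exists_integralModel t d r ht hd fun L hL => by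
    have := isDiscreteValuationRing_integralClosure O L
    infer_instance
  have := isDiscreteValuationRing_integralClosure O L
  have := finite_integralClosure O L
  have := isLocalHom_integralClosure O L
  have hcz := charZero_integralClosure O L
  have hcomp := isAdicComplete_integralClosure O L
  have hfin := finite_residueField_integralClosure O L
  have hinj := algebraMap_integralClosure_injective O L
  obtain ⟨e, he⟩ := exists_pow_div hc
  have hr₀ : MatrixContinuous r₀ := fun n => by
    obtain ⟨K, hK, hKt⟩ := hcont (n + e)
    refine ⟨K, hK, fun σ hσ i j => he n _ (hI σ _ (fun g => ?_) i j)⟩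
    rw [← map_sub]
    have hle : (maximalIdeal O ^ (n + e)).map (algebraMap O (integralClosure O L)) ≤
        maximalIdeal (integralClosure O L) ^ (n + e) := by
      rw [Ideal.map_pow]
      exact Ideal.pow_right_mono (Ideal.map_le_iff_le_comap.2 fun a ha =>
        Ideal.mem_comap.2 (map_nonunit _ a ha)) _
    exact hle (Ideal.mem_map_of_mem _ (hKt σ hσ g))
  refine ⟨integralClosure O L, _, inferInstance, inferInstance, hcomp, hfin, hcz, _,
    inferInstance, inferInstance, hinj, adicOfMatrix r₀ hr₀, fun g => ?_, fun σ hσ => ?_⟩
  · rw [charpoly_adicOfMatrix, htr, hdet]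
  · refine adicOfMatrix_eq_one r₀ hr₀ (Matrix.ext fun i j => ?_)
    have := hI σ ⊥ (fun g => by rw [hσ g, sub_self]; exact Submodule.zero_mem _) i j
    rw [Submodule.mem_bot, mul_eq_zero, Matrix.sub_apply, sub_eq_zero] at this
    exact this.resolve_left hc

end Fermat.Agent.RepTheory
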